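/-
S17lib / P2loc / Eval  (helper8) — Project G, block DEG, (P2)-local, part 1.

Evaluation commutes with reduction, for an ABSTRACT reduction datum `D : RedDatum A F Fk`
(`S18lib/Setup`) with rational places on both sides:

* `sum_disc_eq` : conservation on one residue disc, `∑_{P → Q} ord_P y = ord_Q (red y)`;
* `val_mem_and_residue` (C4) : if `f ∈ O` has no pole on the residue disc of `Q`, then for every `P`
  on that disc `f(P) ∈ A` and the residue of `f(P)` is `(red f)(Q)`;
* `isUnit_val` : if moreover `red f` does not vanish at `Q`, then `f(P) ∈ Aˣ`.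
-/
import Mathlib
import Fermat.Agent.S18lib.Setup.DatumFibre
import Fermat.Agent.S15lib.Weil.Eval

set_option autoImplicit false
set_option linter.unusedSectionVars false
set_option linter.style.haveILetI false

noncomputable section

namespace Fermat.Agent.S17lib.P2loc

open AlgebraicCurve IsLocalRing
open Fermat.Agent.ProgramR Fermat.Agent.S18lib Fermat.Agent.S15lib.Weil

section Elementary

/-- a term of a push-forward divisor which is effective on the fibre is bounded by the
push-forward -/
theorem le_mapDomain_apply_of_fibre {ι κ : Type*} (r : ι → κ) (E : ι →₀ ℤ) (Q : κ)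
    (hE : ∀ P, r P = Q → 0 ≤ E P) {P : ι} (hP : r P = Q) :
    E P ≤ Finsupp.mapDomain r E Q := by
  classical
  rw [mapDomain_apply_eq_sum]
  have hnn : ∀ P' ∈ E.support, 0 ≤ (if r P' = Q then E P' else 0) := fun P' _ => by
    split_ifs with h
    · exact hE P' h
    · exact le_rfl
  by_cases hPs : P ∈ E.support
  · have := Finset.single_le_sum hnn hPs
    rwa [if_pos hP] at this
  · rw [Finsupp.notMem_support_iff.1 hPs]
    exact Finset.sum_nonneg hnn

/-- a push-forward divisor vanishes at `Q` if the divisor vanishes on the fibre -/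
theorem mapDomain_apply_eq_zero_of_fibre {ι κ : Type*} (r : ι → κ) (E : ι →₀ ℤ) (Q : κ)
    (hE : ∀ P, r P = Q → E P = 0) : Finsupp.mapDomain r E Q = 0 := by
  classical
  rw [mapDomain_apply_eq_sum]
  refine Finset.sum_eq_zero fun P _ => ?_
  split_ifs with h
  · exact hE P h
  · rfl

end Elementary

variable {L : Type*} [Field L] {A : ValuationSubring L}
variable {F : Type*} [Field F] [Algebra L F]
variable {Fk : Type*} [Field Fk] [Algebra (IsLocalRing.ResidueField A) Fk]
variable (D : RedDatum A F Fk)
variable [HasPrincipalDivisors L F] [HasPrincipalDivisors (IsLocalRing.ResidueField A) Fk]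

local notation "k" => IsLocalRing.ResidueField A

/-- conservation, evaluated at one place `Q` of the special fibre -/
theorem mapDomain_divOf_apply {y : F} (h : D.redF y ≠ 0) (Q : Place k Fk) :
    Finsupp.mapDomain D.r (divOf (K := L) y) Q = Q.ord (D.redF y) := by
  rw [D.mapDomain_divOf h, divOf_apply']

/-- on a residue disc without poles, the order at one point is at most the order of the
reduction -/
theorem ord_le_ord_redF {y : F} (h : D.redF y ≠ 0) (Q : Place k Fk)
    (hreg : ∀ P : Place L F, D.r P = Q → 0 ≤ P.ord y) {P : Place L F} (hP : D.r P = Q) :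
    P.ord y ≤ Q.ord (D.redF y) := by
  rw [← mapDomain_divOf_apply D h Q]
  have := le_mapDomain_apply_of_fibre D.r (divOf (K := L) y) Q
    (fun P' hP' => by rw [divOf_apply']; exact hreg P' hP') hP
  rwa [divOf_apply'] at this

/-- on a residue disc without zeros and poles, the reduction has neither zero nor pole -/
theorem ord_redF_eq_zero {y : F} (h : D.redF y ≠ 0) (Q : Place k Fk)
    (hreg : ∀ P : Place L F, D.r P = Q → P.ord y = 0) : Q.ord (D.redF y) = 0 := by
  rw [← mapDomain_divOf_apply D h Q]
  exact mapDomain_apply_eq_zero_of_fibre D.r _ Q fun P hP => by rw [divOf_apply']; exact hreg P hP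

variable [RatPlaces L F] [RatPlaces (IsLocalRing.ResidueField A) Fk]

/-- **(C4), first half**: the value lies in `A` -/
theorem val_mem {f : F} (hf : f ∈ D.O) (Q : Place k Fk)
    (hreg : ∀ P : Place L F, D.r P = Q → 0 ≤ P.ord f) {P : Place L F} (hP : D.r P = Q) :
    val P f ∈ A := by
  by_contra hnot
  set a := val P f with ha
  have ha0 : a ≠ 0 := fun h0 => hnot (h0 ▸ A.zero_mem)
  have hainv : a⁻¹ ∈ A := (A.mem_or_inv_mem a).resolve_left hnot
  have hainv_max : (⟨a⁻¹, hainv⟩ : A) ∈ maximalIdeal A := by
    rw [mem_maximalIdeal, mem_nonunits_iff]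
    intro hu
    obtain ⟨b, hb⟩ := isUnit_iff_exists_inv.1 hu
    apply hnot
    have hb' : a⁻¹ * (b : L) = 1 := by
      have := congrArg (Subtype.val) hb
      simpa using this
    have : (b : L) = a := by
      field_simp at hb'
      exact hb'
    rw [← this]
    exact b.2
  set g : F := algebraMap L F a⁻¹ * f - 1 with hg
  have hmul_mem : algebraMap L F a⁻¹ * f ∈ D.O := D.smul_mem ⟨a⁻¹, hainv⟩ hf
  have hredmul : D.redF (algebraMap L F a⁻¹ * f) = 0 := by
    have := D.redF_smul ⟨a⁻¹, hainv⟩ hf
    rw [this, (residue_eq_zero_iff _).2 hainv_max, zero_smul]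
  have hgred : D.redF g = -1 := by
    rw [hg, D.redF_sub hmul_mem D.O.one_mem, hredmul, D.redF_one, zero_sub]
  have hgne : D.redF g ≠ 0 := by rw [hgred]; exact neg_ne_zero.2 one_ne_zero
  have hg0 : g ≠ 0 := by
    rintro h0
    rw [h0, D.redF_zero] at hgne
    exact hgne rfl
  -- `g` is regular on the disc and vanishes at `P`
  have hregmul : ∀ P' : Place L F, D.r P' = Q → algebraMap L F a⁻¹ * f ∈ P'.toValuationSubring :=
    fun P' hP' => mul_mem (P'.algebraMap_mem' _) (FF.mem_of_ord_nonneg P' (hreg P' hP'))
  have hregg : ∀ P' : Place L F, D.r P' = Q → 0 ≤ P'.ord g := fun P' hP' =>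
    FF.ord_nonneg_of_mem P' (sub_mem (hregmul P' hP') (one_mem _))
  have hvalg : val P g = 0 := by
    rw [hg, val_sub P (hregmul P hP) (one_mem _),
      val_mul P (P.algebraMap_mem' _) (FF.mem_of_ord_nonneg P (hreg P hP)), val_algebraMap,
      val_one, ← ha, inv_mul_cancel₀ ha0, sub_self]
  have hpos : 0 < P.ord g := by
    rcases (val_eq_zero_iff P (FF.mem_of_ord_nonneg P (hregg P hP))).1 hvalg with h | h
    · exact absurd h hg0
    · exact h
  have hle := ord_le_ord_redF D hgne Q hregg hP
  rw [hgred] at hle
  have h0 : Q.ord (-1 : Fk) = 0 := by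
    have : (-1 : Fk) = algebraMap k Fk (-1) := by simp
    rw [this]
    exact ord_algebraMap_eq_zero Q (neg_ne_zero.2 one_ne_zero)
  omega

/-- **(C4)**: evaluation commutes with reduction on a residue disc without poles -/
theorem residue_val {f : F} (hf : f ∈ D.O) (Q : Place k Fk)
    (hreg : ∀ P : Place L F, D.r P = Q → 0 ≤ P.ord f) {P : Place L F} (hP : D.r P = Q) :
    residue A ⟨val P f, val_mem D hf Q hreg hP⟩ = val Q (D.redF f) := by
  set a : A := ⟨val P f, val_mem D hf Q hreg hP⟩ with ha
  set g : F := f - algebraMap L F (a : L) with hg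
  have hgO : g ∈ D.O := sub_mem hf (D.algebraMap_mem a)
  have hgred : D.redF g = D.redF f - algebraMap k Fk (residue A a) := by
    rw [hg, D.redF_sub hf (D.algebraMap_mem a), D.redF_algebraMap]
  have hregg : ∀ P' : Place L F, D.r P' = Q → 0 ≤ P'.ord g := fun P' hP' =>
    FF.ord_nonneg_of_mem P' (sub_mem (FF.mem_of_ord_nonneg P' (hreg P' hP'))
      (P'.algebraMap_mem' _))
  have hvalg : val P g = 0 := by
    rw [hg, val_sub P (FF.mem_of_ord_nonneg P (hreg P hP)) (P.algebraMap_mem' _), val_algebraMap,
      sub_self]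
  by_cases hz : D.redF g = 0
  · rw [hgred, sub_eq_zero] at hz
    rw [hz, val_algebraMap]
  · have hg0 : g ≠ 0 := by
      rintro h0
      rw [h0, D.redF_zero] at hz
      exact hz rfl
    have hpos : 0 < P.ord g := by
      rcases (val_eq_zero_iff P (FF.mem_of_ord_nonneg P (hregg P hP))).1 hvalg with h | h
      · exact absurd h hg0
      · exact h
    have hle := ord_le_ord_redF D hz Q hregg hP
    have hpos' : 0 < Q.ord (D.redF f - algebraMap k Fk (residue A a)) := by
      rw [← hgred]; omega
    have hmem : D.redF f ∈ Q.toValuationSubring := by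
      have h1 : D.redF f - algebraMap k Fk (residue A a) ∈ Q.toValuationSubring :=
        FF.mem_of_ord_nonneg Q hpos'.le
      have h2 := add_mem h1 (Q.algebraMap_mem' (residue A a))
      rwa [sub_add_cancel] at h2
    exact ((val_eq_iff Q hmem _).2 (Or.inr hpos')).symm

/-- if `f ∈ O` has neither zero nor pole on the residue disc of `Q` and a non-zero reduction,
its values on the disc are units of `A` -/
theorem val_mem_and_inv_mem {f : F} (hred : D.redF f ≠ 0) (Q : Place k Fk)
    (hreg : ∀ P : Place L F, D.r P = Q → P.ord f = 0) {P : Place L F} (hP : D.r P = Q) :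
    val P f ∈ A ∧ (val P f)⁻¹ ∈ A := by
  have hf : f ∈ D.O := D.mem_of_redF_ne_zero hred
  have hreg' : ∀ P : Place L F, D.r P = Q → 0 ≤ P.ord f := fun P hP => (hreg P hP).ge
  have hmem := val_mem D hf Q hreg' hP
  refine ⟨hmem, ?_⟩
  have hres := residue_val D hf Q hreg' hP
  have hordQ : Q.ord (D.redF f) = 0 := ord_redF_eq_zero D hred Q hreg
  have hne : val Q (D.redF f) ≠ 0 := val_ne_zero Q hred hordQ
  rw [← hres] at hne
  have hunit : IsUnit (⟨val P f, hmem⟩ : A) := by
    by_contra hnu
    apply hne
    rw [residue_eq_zero_iff, mem_maximalIdeal, mem_nonunits_iff]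
    exact hnu
  obtain ⟨b, hb⟩ := isUnit_iff_exists_inv.1 hunit
  have hb' : val P f * (b : L) = 1 := by
    have := congrArg (Subtype.val) hb
    simpa using this
  have : (val P f)⁻¹ = (b : L) := by
    have h0 : val P f ≠ 0 := fun h0 => by rw [h0, zero_mul] at hb'; exact zero_ne_one hb'
    field_simp
    exact hb'.symm
  rw [this]
  exact b.2

end Fermat.Agent.S17lib.P2loc
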