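/-
S17lib / P2loc / Disc  (helper8) — Project G, block DEG, (P2)-local, part 2.

The coordinate on a residue disc.  `D : RedDatum A F Fk` with rational places on both sides,
`Q` a place of the special fibre, `u ∈ Fk` a uniformizer at `Q` and `U ∈ O` a lift of `u` with
`deg (U)_∞ = deg (u)_∞` (a `DiscChart`).  Then on the residue disc `{P | r P = Q}`:

* `U` is regular and `coord P := U(P) ∈ 𝔪_A` (`coord_mem`, `coord_mem_maximalIdeal`);
* for `s ∈ 𝔪_A` the function `U - s` has no pole, and exactly one zero, which is simple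
  (`ord_sub_nonneg`, `exists_zero`, `zero_unique`, `ord_sub_le_one`);
* hence `coord` is a bijection from the disc onto `𝔪_A` (`coord_injective`, `exists_coord_eq`) and
  `ord_P (U - coord S) = if P = S then 1 else 0` (`ord_sub_coord`).
-/
import Mathlib
import Fermat.Agent.S17lib.P2loc.Eval

set_option autoImplicit false
set_option linter.unusedSectionVars false
set_option linter.style.haveILetI false

noncomputable section

namespace Fermat.Agent.S17lib.P2loc

open AlgebraicCurve IsLocalRing
open Fermat.Agent.ProgramR Fermat.Agent.S18lib Fermat.Agent.S15lib.Weil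

section Elementary

/-- two distinct points of a fibre on which the divisor is effective -/
theorem add_le_mapDomain_apply_of_fibre {ι κ : Type*} (r : ι → κ) (E : ι →₀ ℤ) (Q : κ)
    (hE : ∀ P, r P = Q → 0 ≤ E P) {P₁ P₂ : ι} (h₁ : r P₁ = Q) (h₂ : r P₂ = Q) (hne : P₁ ≠ P₂) :
    E P₁ + E P₂ ≤ Finsupp.mapDomain r E Q := by
  classical
  rw [mapDomain_apply_eq_sum]
  have hnn : ∀ P' ∈ E.support, 0 ≤ (if r P' = Q then E P' else 0) := fun P' _ => by
    split_ifs with h
    · exact hE P' h
    · exact le_rfl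
  -- restrict the sum to the two points (those in the support)
  have hsub : (({P₁, P₂} : Finset ι).filter (· ∈ E.support)) ⊆ E.support := fun P hP =>
    (Finset.mem_filter.1 hP).2
  have h1 := Finset.sum_le_sum_of_subset_of_nonneg hsub
    (f := fun P' => if r P' = Q then E P' else 0) (fun P' hP' _ => hnn P' hP')
  refine le_trans ?_ h1
  rw [Finset.sum_filter, Finset.sum_pair hne]
  have e₁ : (if P₁ ∈ E.support then (if r P₁ = Q then E P₁ else 0) else 0) = E P₁ := by
    by_cases hs : P₁ ∈ E.support
    · rw [if_pos hs, if_pos h₁]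
    · rw [if_neg hs, Finsupp.notMem_support_iff.1 hs]
  have e₂ : (if P₂ ∈ E.support then (if r P₂ = Q then E P₂ else 0) else 0) = E P₂ := by
    by_cases hs : P₂ ∈ E.support
    · rw [if_pos hs, if_pos h₂]
    · rw [if_neg hs, Finsupp.notMem_support_iff.1 hs]
  rw [e₁, e₂]

end Elementary

variable {L : Type*} [Field L] {A : ValuationSubring L}
variable {F : Type*} [Field F] [Algebra L F]
variable {Fk : Type*} [Field Fk] [Algebra (IsLocalRing.ResidueField A) Fk]
variable (D : RedDatum A F Fk)
variable [HasPrincipalDivisors L F] [HasPrincipalDivisors (IsLocalRing.ResidueField A) Fk]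
variable [RatPlaces L F] [RatPlaces (IsLocalRing.ResidueField A) Fk]

local notation "k" => IsLocalRing.ResidueField A

/-- a coordinate chart of the residue disc of `Q`: a uniformizer `u` at `Q` and a lift `U` of `u`
to the Gauss ring with the same pole degree -/
structure DiscChart (Q : Place k Fk) where
  /-- the uniformizer downstairs -/
  u : Fk
  /-- its lift -/
  U : F
  ord_u : Q.ord u = 1
  U_mem : U ∈ D.O
  red_U : D.redF U = u
  deg_U : Divisor.degree (polesOf (K := L) U) = Divisor.degree (polesOf (K := k) u)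

namespace DiscChart

variable {D}
variable {Q : Place (IsLocalRing.ResidueField A) Fk} (χ : DiscChart D Q)

theorem hdegpos : ∀ Q' : Place k Fk, 0 < Q'.deg := fun Q' => by
  rw [RatPlaces.deg_eq_one Q']; exact one_pos

theorem u_ne_zero : χ.u ≠ 0 := by
  intro h
  have := χ.ord_u
  rw [h, Place.ord_zero] at this
  exact zero_ne_one this

theorem u_ne_const (c : k) : χ.u ≠ algebraMap k Fk c := by
  intro h
  have h1 := χ.ord_u
  rcases eq_or_ne c 0 with rfl | hc
  · rw [map_zero] at h
    exact χ.u_ne_zero h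
  · rw [h, ord_algebraMap_eq_zero Q hc] at h1
    exact zero_ne_one h1

theorem redF_ne_const (c : k) : D.redF χ.U ≠ algebraMap k Fk c := by
  rw [χ.red_U]; exact χ.u_ne_const c

theorem deg_U' : Divisor.degree (polesOf (K := L) χ.U) =
    Divisor.degree (polesOf (K := k) (D.redF χ.U)) := by
  rw [χ.red_U]; exact χ.deg_U

/-- the function `U - s` for `s ∈ 𝔪_A` reduces to `u` -/
theorem redF_sub {s : A} (hs : s ∈ maximalIdeal A) :
    D.redF (χ.U - algebraMap L F (s : L)) = χ.u := by
  rw [D.redF_sub χ.U_mem (D.algebraMap_mem s), D.redF_algebraMap, χ.red_U,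
    (residue_eq_zero_iff _).2 hs, map_zero, sub_zero]

theorem sub_ne_zero {s : A} (hs : s ∈ maximalIdeal A) : χ.U - algebraMap L F (s : L) ≠ 0 := by
  intro h
  have := χ.redF_sub hs
  rw [h, D.redF_zero] at this
  exact χ.u_ne_zero this.symm

/-- `U - s` has no pole on the disc -/
theorem ord_sub_nonneg {s : A} (hs : s ∈ maximalIdeal A) {P : Place L F} (hP : D.r P = Q) :
    0 ≤ P.ord (χ.U - algebraMap L F (s : L)) := by
  by_contra hneg
  push Not at hneg
  have hred := χ.redF_sub hs
  have hne : D.redF (χ.U - algebraMap L F (s : L)) ≠ 0 := by rw [hred]; exact χ.u_ne_zero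
  have hdeg : Divisor.degree (polesOf (K := L) (χ.U - algebraMap L F (s : L))) =
      Divisor.degree (polesOf (K := k) (D.redF (χ.U - algebraMap L F (s : L)))) := by
    rw [hred, polesOf_sub_algebraMap, χ.deg_U]
  have := D.ord_r_neg_of_ord_neg hdegpos hne hdeg hneg
  rw [hP, hred, χ.ord_u] at this
  omega

/-- a zero of `U - s` on the disc is simple -/
theorem ord_sub_le_one {s : A} (hs : s ∈ maximalIdeal A) {P : Place L F} (hP : D.r P = Q) :
    P.ord (χ.U - algebraMap L F (s : L)) ≤ 1 := by
  have hred := χ.redF_sub hs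
  have hne : D.redF (χ.U - algebraMap L F (s : L)) ≠ 0 := by rw [hred]; exact χ.u_ne_zero
  have := ord_le_ord_redF D hne Q (fun P' hP' => χ.ord_sub_nonneg hs hP') hP
  rwa [hred, χ.ord_u] at this

/-- `U - s` has at most one zero on the disc -/
theorem zero_unique {s : A} (hs : s ∈ maximalIdeal A) {P₁ P₂ : Place L F} (h₁ : D.r P₁ = Q)
    (h₂ : D.r P₂ = Q) (hz₁ : 0 < P₁.ord (χ.U - algebraMap L F (s : L)))
    (hz₂ : 0 < P₂.ord (χ.U - algebraMap L F (s : L))) : P₁ = P₂ := by
  by_contra hne
  have hred := χ.redF_sub hs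
  have hne' : D.redF (χ.U - algebraMap L F (s : L)) ≠ 0 := by rw [hred]; exact χ.u_ne_zero
  have h := add_le_mapDomain_apply_of_fibre D.r (divOf (K := L) (χ.U - algebraMap L F (s : L))) Q
    (fun P' hP' => by rw [divOf_apply']; exact χ.ord_sub_nonneg hs hP') h₁ h₂ hne
  rw [mapDomain_divOf_apply D hne' Q, hred, χ.ord_u, divOf_apply', divOf_apply'] at h
  omega

/-- `U - s` has a zero on the disc -/
theorem exists_zero {s : A} (hs : s ∈ maximalIdeal A) :
    ∃ P : Place L F, D.r P = Q ∧ 0 < P.ord (χ.U - algebraMap L F (s : L)) := by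
  have hpos : 0 < Q.ord (D.redF χ.U - algebraMap k Fk (residue A s)) := by
    rw [χ.red_U, (residue_eq_zero_iff _).2 hs, map_zero, sub_zero, χ.ord_u]
    exact one_pos
  exact D.exists_ord_pos_of_ord_pos hdegpos χ.U_mem χ.redF_ne_const χ.deg_U' s hpos

/-- `U` is regular on the disc -/
theorem ord_U_nonneg {P : Place L F} (hP : D.r P = Q) : 0 ≤ P.ord χ.U := by
  have := χ.ord_sub_nonneg (s := 0) (zero_mem _) hP
  simpa using this

theorem U_mem_place {P : Place L F} (hP : D.r P = Q) : χ.U ∈ P.toValuationSubring :=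
  FF.mem_of_ord_nonneg P (χ.ord_U_nonneg hP)

/-- the coordinate of a point of the disc -/
def coord (P : Place L F) : L := val P χ.U

theorem coord_mem {P : Place L F} (hP : D.r P = Q) : χ.coord P ∈ A :=
  val_mem D χ.U_mem Q (fun _ hP' => χ.ord_U_nonneg hP') hP

theorem coord_mem_maximalIdeal {P : Place L F} (hP : D.r P = Q) :
    (⟨χ.coord P, χ.coord_mem hP⟩ : A) ∈ maximalIdeal A := by
  rw [← residue_eq_zero_iff]
  have := residue_val D χ.U_mem Q (fun _ hP' => χ.ord_U_nonneg hP') hP
  rw [χ.red_U, val_eq_zero_of_ord_pos Q (by rw [χ.ord_u]; exact one_pos)] at this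
  exact this

/-- a point of the disc is a zero of `U - coord P` -/
theorem ord_sub_coord_self_pos {P : Place L F} (hP : D.r P = Q) :
    0 < P.ord (χ.U - algebraMap L F (χ.coord P)) := by
  have hs := χ.coord_mem_maximalIdeal hP
  have hne := χ.sub_ne_zero hs
  have hmem : χ.U - algebraMap L F (χ.coord P) ∈ P.toValuationSubring :=
    sub_mem (χ.U_mem_place hP) (P.algebraMap_mem' _)
  have hval : val P (χ.U - algebraMap L F (χ.coord P)) = 0 := by
    rw [val_sub P (χ.U_mem_place hP) (P.algebraMap_mem' _), val_algebraMap]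
    exact sub_self _
  rcases (val_eq_zero_iff P hmem).1 hval with h | h
  · exact absurd h hne
  · exact h

/-- the coordinate is injective on the disc -/
theorem coord_injective {P₁ P₂ : Place L F} (h₁ : D.r P₁ = Q) (h₂ : D.r P₂ = Q)
    (h : χ.coord P₁ = χ.coord P₂) : P₁ = P₂ := by
  have hs := χ.coord_mem_maximalIdeal h₁
  have z₁ := χ.ord_sub_coord_self_pos h₁
  have z₂ := χ.ord_sub_coord_self_pos h₂
  rw [← h] at z₂
  exact χ.zero_unique hs h₁ h₂ z₁ z₂

/-- the coordinate is onto `𝔪_A` -/
theorem exists_coord_eq {s : A} (hs : s ∈ maximalIdeal A) :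
    ∃ P : Place L F, D.r P = Q ∧ χ.coord P = (s : L) := by
  obtain ⟨P, hP, hz⟩ := χ.exists_zero hs
  refine ⟨P, hP, ?_⟩
  have hmem : χ.U - algebraMap L F (s : L) ∈ P.toValuationSubring :=
    FF.mem_of_ord_nonneg P hz.le
  have := val_eq_zero_of_ord_pos P hz
  rw [val_sub P (χ.U_mem_place hP) (P.algebraMap_mem' _), val_algebraMap, sub_eq_zero] at this
  exact this

open Classical in
/-- **the divisor of `U - coord S` on the disc** -/
theorem ord_sub_coord {S P : Place L F} (hS : D.r S = Q) (hP : D.r P = Q) :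
    P.ord (χ.U - algebraMap L F (χ.coord S)) = if P = S then 1 else 0 := by
  have hs := χ.coord_mem_maximalIdeal hS
  split_ifs with h
  · subst h
    have h1 := χ.ord_sub_coord_self_pos hP
    have h2 : P.ord (χ.U - algebraMap L F (χ.coord P)) ≤ 1 := χ.ord_sub_le_one hs hP
    omega
  · have h0 : 0 ≤ P.ord (χ.U - algebraMap L F (χ.coord S)) := χ.ord_sub_nonneg hs hP
    by_contra hne
    have hpos : 0 < P.ord (χ.U - algebraMap L F (χ.coord S)) := lt_of_le_of_ne h0 (Ne.symm hne)
    exact h (χ.zero_unique hs hP hS hpos (χ.ord_sub_coord_self_pos hS))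

/-- the values of the coordinate function: `(U - coord S)(P) = coord P - coord S` -/
theorem val_sub_coord {S P : Place L F} (hP : D.r P = Q) :
    val P (χ.U - algebraMap L F (χ.coord S)) = χ.coord P - χ.coord S := by
  rw [val_sub P (χ.U_mem_place hP) (P.algebraMap_mem' _), val_algebraMap]
  rfl

theorem coord_sub_coord_ne_zero {S P : Place L F} (hS : D.r S = Q) (hP : D.r P = Q)
    (hne : P ≠ S) : χ.coord P - χ.coord S ≠ 0 := by
  intro h
  exact hne (χ.coord_injective hP hS (sub_eq_zero.1 h))

end DiscChart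

end Fermat.Agent.S17lib.P2loc
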