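/-
S17lib / P2loc / Main  (helper8) — Project G, block DEG, (P2)-local, part 3.

**The local Néron decomposition, multiplicative form.**  `D : RedDatum A F Fk` with rational places
on both sides, `χ : DiscChart D Q` a coordinate on the residue disc of `Q`, `φ ∈ Fˣ`, `c ∈ Lˣ` a
Gauss normalisation of `φ` (`red (c φ) ≠ 0`), `R` a point of the disc, `n = ord_R φ`.  Then

  `c · (φ · (U - U(R))^(-n))(R) = ε · ∏_{S ≠ R on the disc, ord_S φ ≠ 0} (U(R) - U(S))^(ord_S φ)`

with `ε ∈ Aˣ` (`p2_local`).  For `n = 0` the left side is `c · φ(R)`; for `n ≠ 0` it is `c` times the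
leading coefficient of `φ` at `R` with respect to the coordinate `U - U(R)` (the self case).
`p2_local_ratio` compares two points (of any two discs) without the constant `c`.
-/
import Mathlib
import Fermat.Agent.S17lib.P2loc.Disc

set_option autoImplicit false
set_option linter.unusedSectionVars false
set_option linter.style.haveILetI false

noncomputable section

namespace Fermat.Agent.S17lib.P2loc

open AlgebraicCurve IsLocalRing
open Fermat.Agent.ProgramR Fermat.Agent.S18lib Fermat.Agent.S15lib.Weil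

section General

variable {K F : Type*} [Field K] [Field F] [Algebra K F]

/-- the order of a finite product of non-zero functions -/
theorem ord_finset_prod (P : Place K F) {ι : Type*} (s : Finset ι) (f : ι → F)
    (hf : ∀ i ∈ s, f i ≠ 0) : P.ord (∏ i ∈ s, f i) = ∑ i ∈ s, P.ord (f i) := by
  classical
  induction s using Finset.induction with
  | empty => simp
  | insert a s ha ih =>
    have hs : ∀ i ∈ s, f i ≠ 0 := fun i hi => hf i (Finset.mem_insert_of_mem hi)
    rw [Finset.prod_insert ha, Finset.sum_insert ha,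
      P.ord_mul (hf a (Finset.mem_insert_self a s)) (Finset.prod_ne_zero_iff.2 hs), ih hs]

variable [RatPlaces K F]

/-- the value of a finite product of regular functions -/
theorem val_finset_prod (P : Place K F) {ι : Type*} (s : Finset ι) (f : ι → F)
    (hf : ∀ i ∈ s, f i ∈ P.toValuationSubring) :
    val P (∏ i ∈ s, f i) = ∏ i ∈ s, val P (f i) := by
  classical
  induction s using Finset.induction with
  | empty => simp
  | insert a s ha ih =>
    have hs : ∀ i ∈ s, f i ∈ P.toValuationSubring := fun i hi =>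
      hf i (Finset.mem_insert_of_mem hi)
    rw [Finset.prod_insert ha, Finset.prod_insert ha,
      val_mul P (hf a (Finset.mem_insert_self a s)) (prod_mem hs), ih hs]

end General

variable {L : Type*} [Field L] {A : ValuationSubring L}
variable {F : Type*} [Field F] [Algebra L F]
variable {Fk : Type*} [Field Fk] [Algebra (IsLocalRing.ResidueField A) Fk]
variable (D : RedDatum A F Fk)

/-! ### Gauss units -/

theorem redF_mul_ne_zero {x y : F} (hx : D.redF x ≠ 0) (hy : D.redF y ≠ 0) :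
    D.redF (x * y) ≠ 0 := by
  rw [D.redF_mul (D.mem_of_redF_ne_zero hx) (D.mem_of_redF_ne_zero hy)]
  exact mul_ne_zero hx hy

theorem redF_inv_ne_zero {x : F} (hx : D.redF x ≠ 0) : D.redF x⁻¹ ≠ 0 := by
  rw [D.redF_inv hx]
  exact inv_ne_zero hx

theorem redF_pow_ne_zero {x : F} (hx : D.redF x ≠ 0) (n : ℕ) : D.redF (x ^ n) ≠ 0 := by
  rw [D.redF_pow (D.mem_of_redF_ne_zero hx)]
  exact pow_ne_zero n hx

theorem redF_zpow_ne_zero {x : F} (hx : D.redF x ≠ 0) (n : ℤ) : D.redF (x ^ n) ≠ 0 := by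
  cases n with
  | ofNat n =>
    rw [Int.ofNat_eq_natCast, zpow_natCast]
    exact redF_pow_ne_zero D hx n
  | negSucc n =>
    rw [zpow_negSucc]
    exact redF_inv_ne_zero D (redF_pow_ne_zero D hx (n + 1))

theorem redF_prod_ne_zero {ι : Type*} (s : Finset ι) (f : ι → F)
    (hf : ∀ i ∈ s, D.redF (f i) ≠ 0) : D.redF (∏ i ∈ s, f i) ≠ 0 := by
  classical
  induction s using Finset.induction with
  | empty =>
    rw [Finset.prod_empty, D.redF_one]
    exact one_ne_zero
  | insert a s ha ih =>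
    rw [Finset.prod_insert ha]
    exact redF_mul_ne_zero D (hf a (Finset.mem_insert_self a s))
      (ih fun i hi => hf i (Finset.mem_insert_of_mem hi))

variable [HasPrincipalDivisors L F] [HasPrincipalDivisors (IsLocalRing.ResidueField A) Fk]
variable [RatPlaces L F] [RatPlaces (IsLocalRing.ResidueField A) Fk]

open Classical in
/-- the zeros and poles of `φ` on the residue disc of `Q`, other than `R` -/
def discSupp (Q : Place (IsLocalRing.ResidueField A) Fk) (φ : F) (R : Place L F) :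
    Finset (Place L F) :=
  (divOf (K := L) φ).support.filter fun S => D.r S = Q ∧ S ≠ R

variable {D}

theorem mem_discSupp {Q : Place (IsLocalRing.ResidueField A) Fk} {φ : F} {R S : Place L F} :
    S ∈ discSupp D Q φ R ↔ S.ord φ ≠ 0 ∧ D.r S = Q ∧ S ≠ R := by
  classical
  rw [discSupp, Finset.mem_filter, Finsupp.mem_support_iff, divOf_apply']

variable {Q : Place (IsLocalRing.ResidueField A) Fk} (χ : DiscChart D Q)

/-- the coordinate function centred at `S` -/
def DiscChart.w (S : Place L F) : F := χ.U - algebraMap L F (χ.coord S)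

theorem DiscChart.w_ne_zero {S : Place L F} (hS : D.r S = Q) : χ.w S ≠ 0 :=
  χ.sub_ne_zero (χ.coord_mem_maximalIdeal hS)

theorem DiscChart.redF_w {S : Place L F} (hS : D.r S = Q) : D.redF (χ.w S) = χ.u :=
  χ.redF_sub (χ.coord_mem_maximalIdeal hS)

theorem DiscChart.redF_w_ne_zero {S : Place L F} (hS : D.r S = Q) : D.redF (χ.w S) ≠ 0 := by
  rw [χ.redF_w hS]; exact χ.u_ne_zero

open Classical in
theorem DiscChart.ord_w {S P : Place L F} (hS : D.r S = Q) (hP : D.r P = Q) :
    P.ord (χ.w S) = if P = S then 1 else 0 :=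
  χ.ord_sub_coord hS hP

/-- the regularised value (leading coefficient) of `φ` at `R` in the coordinate `U - U(R)` -/
def DiscChart.lcVal (φ : F) (R : Place L F) : L := val R (φ * χ.w R ^ (-(R.ord φ)))

/-- the auxiliary function of the proof: `c φ` divided by its zeros and poles on the disc -/
def DiscChart.aux (c : L) (φ : F) (R : Place L F) : F :=
  algebraMap L F c * (φ * χ.w R ^ (-(R.ord φ))) *
    ∏ S ∈ discSupp D Q φ R, χ.w S ^ (-(S.ord φ))

theorem DiscChart.redF_aux_ne_zero {c : L} {φ : F}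
    (hred : D.redF (algebraMap L F c * φ) ≠ 0) {R : Place L F} (hR : D.r R = Q) :
    D.redF (χ.aux c φ R) ≠ 0 := by
  have h1 : D.redF (algebraMap L F c * φ * χ.w R ^ (-(R.ord φ))) ≠ 0 :=
    redF_mul_ne_zero D hred (redF_zpow_ne_zero D (χ.redF_w_ne_zero hR) _)
  have h2 : D.redF (∏ S ∈ discSupp D Q φ R, χ.w S ^ (-(S.ord φ))) ≠ 0 :=
    redF_prod_ne_zero D _ _ fun S hS =>
      redF_zpow_ne_zero D (χ.redF_w_ne_zero (mem_discSupp.1 hS).2.1) _
  have := redF_mul_ne_zero D h1 h2
  rwa [show algebraMap L F c * φ * χ.w R ^ (-(R.ord φ)) *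
      ∏ S ∈ discSupp D Q φ R, χ.w S ^ (-(S.ord φ)) = χ.aux c φ R by
    rw [DiscChart.aux]; ring] at this

open Classical in
theorem DiscChart.ord_aux {c : L} (hc : c ≠ 0) {φ : F} (hφ : φ ≠ 0) {R : Place L F}
    (hR : D.r R = Q) {P : Place L F} (hP : D.r P = Q) : P.ord (χ.aux c φ R) = 0 := by
  have hw : ∀ S ∈ discSupp D Q φ R, χ.w S ^ (-(S.ord φ)) ≠ 0 := fun S hS =>
    zpow_ne_zero _ (χ.w_ne_zero (mem_discSupp.1 hS).2.1)
  have hwR : χ.w R ^ (-(R.ord φ)) ≠ 0 := zpow_ne_zero _ (χ.w_ne_zero hR)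
  have hcF : algebraMap L F c ≠ 0 := (map_ne_zero _).2 hc
  rw [DiscChart.aux, P.ord_mul (mul_ne_zero hcF (mul_ne_zero hφ hwR))
    (Finset.prod_ne_zero_iff.2 hw), P.ord_mul hcF (mul_ne_zero hφ hwR), P.ord_mul hφ hwR,
    ord_algebraMap_eq_zero P hc, P.ord_zpow, χ.ord_w hR hP, ord_finset_prod P _ _ hw]
  have hsum : ∑ S ∈ discSupp D Q φ R, P.ord (χ.w S ^ (-(S.ord φ))) =
      ∑ S ∈ discSupp D Q φ R, (if P = S then -(S.ord φ) else 0) := by
    refine Finset.sum_congr rfl fun S hS => ?_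
    rw [P.ord_zpow, χ.ord_w (mem_discSupp.1 hS).2.1 hP]
    split_ifs <;> simp
  rw [hsum, Finset.sum_ite_eq]
  by_cases hPR : P = R
  · subst hPR
    have hnot : P ∉ discSupp D Q φ P := fun h => (mem_discSupp.1 h).2.2 rfl
    rw [if_pos rfl, if_neg hnot]
    ring
  · rw [if_neg hPR]
    by_cases hPT : P ∈ discSupp D Q φ R
    · rw [if_pos hPT]
      ring
    · rw [if_neg hPT]
      have h0 : P.ord φ = 0 := by
        by_contra hne
        exact hPT (mem_discSupp.2 ⟨hne, hP, hPR⟩)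
      rw [h0]
      ring

/-- **(P2)-local, multiplicative form** -/
theorem p2_local {φ : F} (hφ : φ ≠ 0) {c : L} (hc : c ≠ 0)
    (hred : D.redF (algebraMap L F c * φ) ≠ 0) {R : Place L F} (hR : D.r R = Q) :
    ∃ ε : L, ε ∈ A ∧ ε⁻¹ ∈ A ∧
      c * χ.lcVal φ R = ε * ∏ S ∈ discSupp D Q φ R, (χ.coord R - χ.coord S) ^ (S.ord φ) := by
  classical
  have hunit := val_mem_and_inv_mem D (χ.redF_aux_ne_zero hred hR) Q
    (fun P hP => χ.ord_aux hc hφ hR hP) hR
  refine ⟨val R (χ.aux c φ R), hunit.1, hunit.2, ?_⟩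
  -- regularity at `R` of the three factors
  have hwR0 : χ.w R ≠ 0 := χ.w_ne_zero hR
  have hord1 : R.ord (φ * χ.w R ^ (-(R.ord φ))) = 0 := by
    rw [R.ord_mul hφ (zpow_ne_zero _ hwR0), R.ord_zpow, χ.ord_w hR hR, if_pos rfl]
    ring
  have hmem1 : φ * χ.w R ^ (-(R.ord φ)) ∈ R.toValuationSubring := mem_of_ord_eq_zero R hord1
  have hordS : ∀ S ∈ discSupp D Q φ R, R.ord (χ.w S) = 0 := fun S hS => by
    have h := mem_discSupp.1 hS
    rw [χ.ord_w h.2.1 hR, if_neg (Ne.symm h.2.2)]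
  have hmemS : ∀ S ∈ discSupp D Q φ R, χ.w S ^ (-(S.ord φ)) ∈ R.toValuationSubring :=
    fun S hS => by
      apply mem_of_ord_eq_zero
      rw [R.ord_zpow, hordS S hS, mul_zero]
  have hval : val R (χ.aux c φ R) = c * χ.lcVal φ R *
      ∏ S ∈ discSupp D Q φ R, (χ.coord R - χ.coord S) ^ (-(S.ord φ)) := by
    rw [DiscChart.aux, val_mul R (mul_mem (R.algebraMap_mem' c) hmem1) (prod_mem hmemS),
      val_mul R (R.algebraMap_mem' c) hmem1, val_algebraMap, val_finset_prod R _ _ hmemS]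
    congr 1
    refine Finset.prod_congr rfl fun S hS => ?_
    have h := mem_discSupp.1 hS
    rw [val_zpow R (χ.w_ne_zero h.2.1) (hordS S hS)]
    congr 1
    exact χ.val_sub_coord hR
  rw [hval, mul_assoc, mul_assoc]
  congr 1
  rw [← Finset.prod_mul_distrib]
  symm
  have : ∀ S ∈ discSupp D Q φ R,
      (χ.coord R - χ.coord S) ^ (-(S.ord φ)) * (χ.coord R - χ.coord S) ^ (S.ord φ) = 1 := by
    intro S hS
    have h := mem_discSupp.1 hS
    have hne : χ.coord R - χ.coord S ≠ 0 := χ.coord_sub_coord_ne_zero h.2.1 hR (Ne.symm h.2.2)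
    rw [← zpow_add₀ hne]
    simp
  rw [Finset.prod_congr rfl this, Finset.prod_const_one, mul_one]

/-- the leading coefficient is non-zero -/
theorem DiscChart.lcVal_ne_zero {φ : F} (hφ : φ ≠ 0) {R : Place L F} (hR : D.r R = Q) :
    χ.lcVal φ R ≠ 0 := by
  have hwR0 : χ.w R ≠ 0 := χ.w_ne_zero hR
  have hord1 : R.ord (φ * χ.w R ^ (-(R.ord φ))) = 0 := by
    rw [R.ord_mul hφ (zpow_ne_zero _ hwR0), R.ord_zpow, χ.ord_w hR hR, if_pos rfl]
    ring
  exact val_ne_zero R (mul_ne_zero hφ (zpow_ne_zero _ hwR0)) hord1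

/-- `lcVal` is the plain value at the points outside the divisor of `φ` -/
theorem DiscChart.lcVal_of_ord_eq_zero {φ : F} {R : Place L F} (h : R.ord φ = 0) :
    χ.lcVal φ R = val R φ := by
  rw [DiscChart.lcVal, h, neg_zero, zpow_zero, mul_one]

/-- **(P2)-local, comparison of two points** (of any two discs): the constant `c` disappears. -/
theorem p2_local_ratio {Q' : Place (IsLocalRing.ResidueField A) Fk} (χ' : DiscChart D Q')
    {φ : F} (hφ : φ ≠ 0) {R R' : Place L F} (hR : D.r R = Q) (hR' : D.r R' = Q') :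
    ∃ ε : L, ε ∈ A ∧ ε⁻¹ ∈ A ∧
      χ.lcVal φ R * ∏ S ∈ discSupp D Q' φ R', (χ'.coord R' - χ'.coord S) ^ (S.ord φ) =
        ε * (χ'.lcVal φ R' * ∏ S ∈ discSupp D Q φ R, (χ.coord R - χ.coord S) ^ (S.ord φ)) := by
  obtain ⟨c, hc, hred⟩ := D.exists_const_mul_redF_ne_zero hφ
  obtain ⟨ε, hε, hε', h⟩ := p2_local χ hφ hc hred hR
  obtain ⟨ε', hε₁, hε₁', h'⟩ := p2_local χ' hφ hc hred hR'
  refine ⟨ε * ε'⁻¹, A.mul_mem _ _ hε hε₁', ?_, ?_⟩
  · rw [mul_inv, inv_inv]
    exact A.mul_mem _ _ hε' hε₁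
  · have hε'0 : ε' ≠ 0 := by
      rintro rfl
      have h1 := χ'.lcVal_ne_zero hφ hR'
      rw [zero_mul] at h'
      exact (mul_ne_zero hc h1) h'
    have e1 : χ.lcVal φ R = c⁻¹ * (ε * ∏ S ∈ discSupp D Q φ R,
        (χ.coord R - χ.coord S) ^ (S.ord φ)) := by
      rw [← h, ← mul_assoc, inv_mul_cancel₀ hc, one_mul]
    have e2 : ∏ S ∈ discSupp D Q' φ R', (χ'.coord R' - χ'.coord S) ^ (S.ord φ) =
        ε'⁻¹ * (c * χ'.lcVal φ R') := by
      rw [h', ← mul_assoc, inv_mul_cancel₀ hε'0, one_mul]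
    rw [e1, e2]
    field_simp

end Fermat.Agent.S17lib.P2loc
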