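/-
S17lib / P2loc / Const  (helper8) — Project G, block DEG, (P2)-local, part 4: constant functions.

`D : RedDatum A F Fk` with rational places on both sides and a SECTION `ι : Fk →+* F` of the
reduction with the properties of a constant field extension (`ConstLift`: `ι f ∈ O`,
`red (ι f) = f`, `deg (ι f)_∞ = deg (f)_∞`).  Then for `P` on the residue disc of `Q`:

* (d2) `f` regular at `Q` ⟹ `ι f` regular at `P`, `(ι f)(P) ∈ A`, residue `= f(Q)`
  (`ord_nonneg`, `val_mem`, `residue_val`); `f` a unit at `Q` ⟹ `(ι f)(P) ∈ Aˣ` (`val_unit`);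
  `f` has a pole at `Q` ⟹ `ι f` has a pole at `P` or `(ι f)(P) ∉ A` (`val_not_mem`);
  for a generic point `P` (no zero or pole of any `ι f`): `(ι f)(P) ∈ A ↔ f` regular at `Q`
  (`val_mem_iff`), and `f ↦ (ι f)(P)` is a ring homomorphism (`evalHom`);
* the chart `ι u` of the disc for a uniformizer `u` at `Q` (`chart`);
* the SELF / ADJUNCTION local term (`self_term`): for `t ∈ Fk` with `ord_Q t = e ≥ 1`, `e ∈ Aˣ`,
  `((ι t - t(R)) / (ι u - u(R)))(R) = ε · u(R)^(e-1)` with `ε ∈ Aˣ`;
* change of the local parameter in the leading coefficient (`lcVal_eq_mul_zpow`).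
-/
import Mathlib
import Fermat.Agent.S17lib.P2loc.Main

set_option autoImplicit false
set_option linter.unusedSectionVars false
set_option linter.style.haveILetI false

noncomputable section

namespace Fermat.Agent.S17lib.P2loc

open AlgebraicCurve IsLocalRing
open Fermat.Agent.ProgramR Fermat.Agent.S18lib Fermat.Agent.S15lib.Weil

section General

variable {K F : Type*} [Field K] [Field F] [Algebra K F]

/-- a constant function has no poles -/
theorem polesOf_algebraMap [HasPrincipalDivisors K F] (c : K) :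
    polesOf (K := K) (algebraMap K F c) = 0 := by
  ext P
  rw [polesOf_apply, Finsupp.zero_apply]
  rcases eq_or_ne c 0 with rfl | hc
  · rw [map_zero, Place.ord_zero]; simp
  · rw [ord_algebraMap_eq_zero P hc]; simp

variable [RatPlaces K F]

/-- the value of a finite sum of regular functions -/
theorem val_finset_sum (P : Place K F) {ι : Type*} (s : Finset ι) (f : ι → F)
    (hf : ∀ i ∈ s, f i ∈ P.toValuationSubring) :
    val P (∑ i ∈ s, f i) = ∑ i ∈ s, val P (f i) := by
  classical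
  induction s using Finset.induction with
  | empty => simp
  | insert a s ha ih =>
    have hs : ∀ i ∈ s, f i ∈ P.toValuationSubring := fun i hi =>
      hf i (Finset.mem_insert_of_mem hi)
    rw [Finset.sum_insert ha, Finset.sum_insert ha,
      val_add P (hf a (Finset.mem_insert_self a s)) (sum_mem hs), ih hs]

end General

section ValSub

variable {L : Type*} [Field L] (A : ValuationSubring L)

/-- units of a valuation subring, in terms of membership -/
theorem valuation_eq_one_of_mem_of_inv_mem {x : L} (hx0 : x ≠ 0) (hx : x ∈ A) (hx' : x⁻¹ ∈ A) :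
    A.valuation x = 1 := by
  have h1 : A.valuation x ≤ 1 := (A.valuation_le_one_iff x).2 hx
  have h2 : A.valuation x⁻¹ ≤ 1 := (A.valuation_le_one_iff x⁻¹).2 hx'
  rw [map_inv₀] at h2
  have h0 : A.valuation x ≠ 0 := (Valuation.ne_zero_iff _).2 hx0
  have h3 : 1 ≤ A.valuation x := by
    have := (inv_le_one₀ (zero_lt_iff.2 h0)).1 h2
    exact this
  exact le_antisymm h1 h3

theorem mem_and_inv_mem_of_valuation_eq_one {x : L} (h : A.valuation x = 1) :
    x ∈ A ∧ x⁻¹ ∈ A := by
  refine ⟨(A.valuation_le_one_iff x).1 h.le, (A.valuation_le_one_iff x⁻¹).1 ?_⟩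
  rw [map_inv₀, h, inv_one]

theorem valuation_lt_one_of_mem_maximalIdeal {x : L} (hx : x ∈ A)
    (hm : (⟨x, hx⟩ : A) ∈ maximalIdeal A) : A.valuation x < 1 :=
  (A.valuation_lt_one_iff ⟨x, hx⟩).1 hm

/-- in residue characteristic zero the non-zero natural numbers are units -/
theorem valuation_natCast_eq_one [CharZero (IsLocalRing.ResidueField A)] {e : ℕ} (he : e ≠ 0) :
    A.valuation (e : L) = 1 := by
  have hunit : IsUnit ((e : ℕ) : A) := by
    by_contra hnu
    have hm : ((e : ℕ) : A) ∈ maximalIdeal A := by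
      rw [mem_maximalIdeal, mem_nonunits_iff]; exact hnu
    have h0 := (residue_eq_zero_iff _).2 hm
    rw [map_natCast] at h0
    exact he (Nat.cast_eq_zero.1 h0)
  have := (A.valuation_eq_one_iff ((e : ℕ) : A)).1 hunit
  simpa using this

end ValSub

variable {L : Type*} [Field L] {A : ValuationSubring L}
variable {F : Type*} [Field F] [Algebra L F]
variable {Fk : Type*} [Field Fk] [Algebra (IsLocalRing.ResidueField A) Fk]
variable (D : RedDatum A F Fk)
variable [HasPrincipalDivisors L F] [HasPrincipalDivisors (IsLocalRing.ResidueField A) Fk]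
variable [RatPlaces L F] [RatPlaces (IsLocalRing.ResidueField A) Fk]

/-- a section of the reduction with the properties of a constant field extension -/
structure ConstLift where
  /-- the section -/
  ι : Fk →+* F
  mem : ∀ f, ι f ∈ D.O
  red : ∀ f, D.redF (ι f) = f
  deg : ∀ f, Divisor.degree (polesOf (K := L) (ι f)) =
    Divisor.degree (polesOf (K := IsLocalRing.ResidueField A) f)

/-- constructor: the degree condition only for non-constant functions, and constants go to
constants -/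
def ConstLift.ofNonconst (ι : Fk →+* F) (mem : ∀ f, ι f ∈ D.O) (red : ∀ f, D.redF (ι f) = f)
    (deg : ∀ f, (∀ c : IsLocalRing.ResidueField A, f ≠ algebraMap _ Fk c) →
      Divisor.degree (polesOf (K := L) (ι f)) =
        Divisor.degree (polesOf (K := IsLocalRing.ResidueField A) f))
    (hconst : ∀ c : IsLocalRing.ResidueField A, ∃ a : L, ι (algebraMap _ Fk c) = algebraMap L F a) :
    ConstLift D where
  ι := ι
  mem := mem
  red := red
  deg f := by
    by_cases h : ∀ c : IsLocalRing.ResidueField A, f ≠ algebraMap _ Fk c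
    · exact deg f h
    · push Not at h
      obtain ⟨c, rfl⟩ := h
      obtain ⟨a, ha⟩ := hconst c
      rw [ha, polesOf_algebraMap, polesOf_algebraMap, map_zero, map_zero]

namespace ConstLift

variable {D}
variable (ℓ : ConstLift D) {Q : Place (IsLocalRing.ResidueField A) Fk}

theorem ι_ne_zero {f : Fk} (hf : f ≠ 0) : ℓ.ι f ≠ 0 := fun h =>
  hf (ℓ.ι.injective (h.trans (map_zero ℓ.ι).symm))

theorem redF_ne_zero {f : Fk} (hf : f ≠ 0) : D.redF (ℓ.ι f) ≠ 0 := by
  rw [ℓ.red]; exact hf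

theorem deg' (f : Fk) : Divisor.degree (polesOf (K := L) (ℓ.ι f)) =
    Divisor.degree (polesOf (K := IsLocalRing.ResidueField A) (D.redF (ℓ.ι f))) := by
  rw [ℓ.red]; exact ℓ.deg f


/-- **(d2), regular part**: no pole of `ι f` on the residue disc of a point where `f` is
regular -/
theorem ord_nonneg {f : Fk} (hf : 0 ≤ Q.ord f) {P : Place L F} (hP : D.r P = Q) :
    0 ≤ P.ord (ℓ.ι f) := by
  rcases eq_or_ne f 0 with rfl | hf0
  · rw [map_zero, Place.ord_zero]
  by_contra hneg
  push Not at hneg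
  have := D.ord_r_neg_of_ord_neg DiscChart.hdegpos (ℓ.redF_ne_zero hf0) (ℓ.deg' f) hneg
  rw [hP, ℓ.red] at this
  omega

theorem mem_place {f : Fk} (hf : 0 ≤ Q.ord f) {P : Place L F} (hP : D.r P = Q) :
    ℓ.ι f ∈ P.toValuationSubring :=
  FF.mem_of_ord_nonneg P (ℓ.ord_nonneg hf hP)

/-- neither zero nor pole of `ι f` on the residue disc of a point where `f` is a unit -/
theorem ord_eq_zero {f : Fk} (hf : Q.ord f = 0) {P : Place L F} (hP : D.r P = Q) :
    P.ord (ℓ.ι f) = 0 := by
  have h1 := ℓ.ord_nonneg hf.ge hP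
  have h2 : 0 ≤ P.ord (ℓ.ι f⁻¹) := ℓ.ord_nonneg (by rw [Q.ord_inv, hf, neg_zero]) hP
  rw [map_inv₀, P.ord_inv] at h2
  omega

/-- **(d2)**: the value of `ι f` on the residue disc of a regular point of `f` is integral -/
theorem val_mem {f : Fk} (hf : 0 ≤ Q.ord f) {P : Place L F} (hP : D.r P = Q) :
    val P (ℓ.ι f) ∈ A :=
  P2loc.val_mem D (ℓ.mem f) Q (fun _ hP' => ℓ.ord_nonneg hf hP') hP

/-- **(d2)**: … and reduces to the value of `f` -/
theorem residue_val {f : Fk} (hf : 0 ≤ Q.ord f) {P : Place L F} (hP : D.r P = Q) :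
    residue A ⟨val P (ℓ.ι f), ℓ.val_mem hf hP⟩ = val Q f := by
  have := P2loc.residue_val D (ℓ.mem f) Q (fun _ hP' => ℓ.ord_nonneg hf hP') hP
  rw [ℓ.red] at this
  exact this

/-- the values of `ι f` on the residue disc of a point where `f` is a unit are units -/
theorem val_unit {f : Fk} (hf0 : f ≠ 0) (hf : Q.ord f = 0) {P : Place L F} (hP : D.r P = Q) :
    val P (ℓ.ι f) ∈ A ∧ (val P (ℓ.ι f))⁻¹ ∈ A :=
  val_mem_and_inv_mem D (ℓ.redF_ne_zero hf0) Q (fun _ hP' => ℓ.ord_eq_zero hf hP') hP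

/-- the values of `ι f` on the residue disc of a zero of `f` are in the maximal ideal -/
theorem val_mem_maximalIdeal {f : Fk} (hf : 0 < Q.ord f) {P : Place L F} (hP : D.r P = Q) :
    (⟨val P (ℓ.ι f), ℓ.val_mem hf.le hP⟩ : A) ∈ maximalIdeal A := by
  rw [← residue_eq_zero_iff, ℓ.residue_val hf.le hP]
  exact val_eq_zero_of_ord_pos Q hf

/-- **(d2), polar part**: on the residue disc of a pole of `f`, either `ι f` has a pole or its
value is not integral -/
theorem val_not_mem {f : Fk} (hf : Q.ord f < 0) {P : Place L F} (hP : D.r P = Q)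
    (hreg : 0 ≤ P.ord (ℓ.ι f)) : val P (ℓ.ι f) ∉ A := by
  have hf0 : f ≠ 0 := by
    rintro rfl
    rw [Place.ord_zero] at hf
    exact lt_irrefl _ hf
  have hinv : 0 < Q.ord f⁻¹ := by rw [Q.ord_inv]; omega
  have h2 := ℓ.ord_nonneg hinv.le hP
  rw [map_inv₀, P.ord_inv] at h2
  have hord : P.ord (ℓ.ι f) = 0 := by omega
  have hm := ℓ.val_mem_maximalIdeal hinv hP
  intro hmem
  have hlt := valuation_lt_one_of_mem_maximalIdeal A _ hm
  rw [map_inv₀, val_inv P (ℓ.ι_ne_zero hf0) hord, map_inv₀] at hlt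
  have hle : A.valuation (val P (ℓ.ι f)) ≤ 1 := (A.valuation_le_one_iff _).2 hmem
  have h0 : A.valuation (val P (ℓ.ι f)) ≠ 0 :=
    (Valuation.ne_zero_iff _).2 (val_ne_zero P (ℓ.ι_ne_zero hf0) hord)
  have : 1 ≤ (A.valuation (val P (ℓ.ι f)))⁻¹ := (one_le_inv₀ (zero_lt_iff.2 h0)).2 hle
  exact absurd hlt (not_lt.2 this)

/-- **(d2), `LiesOver` form**: at a generic point `P` of the residue disc of `Q`, the value of
`ι f` is integral iff `f` is regular at `Q` -/
theorem val_mem_iff {P : Place L F} (hP : D.r P = Q)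
    (hgen : ∀ f : Fk, f ≠ 0 → P.ord (ℓ.ι f) = 0) (f : Fk) :
    val P (ℓ.ι f) ∈ A ↔ 0 ≤ Q.ord f := by
  constructor
  · intro hmem
    by_contra hneg
    push Not at hneg
    have hf0 : f ≠ 0 := by
      rintro rfl
      rw [Place.ord_zero] at hneg
      exact lt_irrefl _ hneg
    exact ℓ.val_not_mem hneg hP (hgen f hf0).ge hmem
  · intro hf
    exact ℓ.val_mem hf hP

/-- evaluation at a generic point, as a ring homomorphism `Fk → L` -/
def evalHom (P : Place L F) (hgen : ∀ f : Fk, f ≠ 0 → P.ord (ℓ.ι f) = 0) : Fk →+* L where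
  toFun f := val P (ℓ.ι f)
  map_one' := by rw [map_one, val_one]
  map_zero' := by rw [map_zero, val_zero]
  map_mul' f g := by
    have hreg : ∀ h : Fk, ℓ.ι h ∈ P.toValuationSubring := fun h => by
      rcases eq_or_ne h 0 with rfl | h0
      · rw [map_zero]; exact zero_mem _
      · exact mem_of_ord_eq_zero P (hgen h h0)
    rw [map_mul, val_mul P (hreg f) (hreg g)]
  map_add' f g := by
    have hreg : ∀ h : Fk, ℓ.ι h ∈ P.toValuationSubring := fun h => by
      rcases eq_or_ne h 0 with rfl | h0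
      · rw [map_zero]; exact zero_mem _
      · exact mem_of_ord_eq_zero P (hgen h h0)
    rw [map_add, val_add P (hreg f) (hreg g)]

@[simp]
theorem evalHom_apply (P : Place L F) (hgen : ∀ f : Fk, f ≠ 0 → P.ord (ℓ.ι f) = 0) (f : Fk) :
    ℓ.evalHom P hgen f = val P (ℓ.ι f) := rfl

/-- the chart of the residue disc of `Q` given by a uniformizer `u` at `Q` -/
def chart (u : Fk) (hu : Q.ord u = 1) : DiscChart D Q where
  u := u
  U := ℓ.ι u
  ord_u := hu
  U_mem := ℓ.mem u
  red_U := ℓ.red u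
  deg_U := ℓ.deg u

/-! ### the self / adjunction local term -/

section SelfTerm

variable {u : Fk} (hu : Q.ord u = 1)

/-- the difference quotient `(ι t - t(R)) / (ι u - u(R))` -/
def diffQuot (t : Fk) (R : Place L F) : F :=
  (ℓ.ι t - algebraMap L F (val R (ℓ.ι t))) * ((ℓ.chart u hu).w R)⁻¹

/-- **the self / adjunction local term**: if `t` vanishes to order `e ≥ 1` at `Q` and `e` is a
unit of `A`, then the value at `R` (on the disc of `Q`) of the difference quotient
`(ι t - t(R)) / (ι u - u(R))` is a unit times `u(R)^(e-1)`. -/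
theorem self_term {t : Fk} {e : ℕ} (he : 1 ≤ e) (ht : Q.ord t = e)
    (hunit : A.valuation (e : L) = 1)
    {R : Place L F} (hR : D.r R = Q) :
    0 ≤ R.ord (ℓ.diffQuot hu t R) ∧
    ∃ ε : L, A.valuation ε = 1 ∧
      val R (ℓ.diffQuot hu t R) = ε * ((ℓ.chart u hu).coord R) ^ (e - 1) := by
  classical
  set χ := ℓ.chart u hu with hχ
  have hu0 : u ≠ 0 := χ.u_ne_zero
  have ht0 : t ≠ 0 := by
    rintro rfl
    rw [Place.ord_zero] at ht
    have : (e : ℤ) = 0 := ht.symm
    omega
  -- the unit part of `t`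
  set v : Fk := t * (u ^ e)⁻¹ with hv
  have hue0 : u ^ e ≠ 0 := pow_ne_zero _ hu0
  have hv0 : v ≠ 0 := mul_ne_zero ht0 (inv_ne_zero hue0)
  have hordv : Q.ord v = 0 := by
    rw [hv, Q.ord_mul ht0 (inv_ne_zero hue0), Q.ord_inv, ← zpow_natCast, Q.ord_zpow, hu, ht]
    ring
  have htv : t = u ^ e * v := by
    rw [hv, mul_comm t, ← mul_assoc, mul_inv_cancel₀ hue0, one_mul]
  set U : F := ℓ.ι u with hU
  set V : F := ℓ.ι v with hV
  have hιt : ℓ.ι t = U ^ e * V := by rw [htv, map_mul, map_pow]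
  -- the coordinate and the value of the unit part
  set c : L := χ.coord R with hc
  have hcU : val R U = c := rfl
  have hcA : c ∈ A := χ.coord_mem hR
  have hcm : (⟨c, hcA⟩ : A) ∈ maximalIdeal A := χ.coord_mem_maximalIdeal hR
  set b : L := val R V with hb
  have hbu : b ∈ A ∧ b⁻¹ ∈ A := ℓ.val_unit hv0 hordv hR
  have hUreg : U ∈ R.toValuationSubring := χ.U_mem_place hR
  have hVord : R.ord V = 0 := ℓ.ord_eq_zero hordv hR
  have hVreg : V ∈ R.toValuationSubring := mem_of_ord_eq_zero R hVord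
  have hV0 : V ≠ 0 := ℓ.ι_ne_zero hv0
  have hb0 : b ≠ 0 := val_ne_zero R hV0 hVord
  have hvalt : val R (ℓ.ι t) = c ^ e * b := by
    rw [hιt, val_mul R (pow_mem hUreg e) hVreg, val_pow R hUreg, hcU]
  -- the coordinate function
  set w : F := χ.w R with hw
  have hw0 : w ≠ 0 := χ.w_ne_zero hR
  have hwdef : w = U - algebraMap L F c := rfl
  -- the geometric sum
  set G : F := ∑ i ∈ Finset.range e, U ^ i * algebraMap L F c ^ (e - 1 - i) with hG
  have hGw : G * w = U ^ e - algebraMap L F c ^ e := by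
    rw [hG, hwdef]; exact geom_sum₂_mul U (algebraMap L F c) e
  have hGreg : G ∈ R.toValuationSubring :=
    sum_mem fun i _ => mul_mem (pow_mem hUreg i) (pow_mem (R.algebraMap_mem' c) _)
  have hvalG : val R G = (e : L) * c ^ (e - 1) := by
    rw [hG, val_finset_sum R _ _ fun i _ =>
      mul_mem (pow_mem hUreg i) (pow_mem (R.algebraMap_mem' c) _)]
    have : ∀ i ∈ Finset.range e, val R (U ^ i * algebraMap L F c ^ (e - 1 - i)) = c ^ (e - 1) := by
      intro i hi
      have hi' : i < e := Finset.mem_range.1 hi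
      rw [val_mul R (pow_mem hUreg i) (pow_mem (R.algebraMap_mem' c) _), val_pow R hUreg,
        val_pow R (R.algebraMap_mem' c), val_algebraMap, hcU, ← pow_add]
      congr 1
      omega
    rw [Finset.sum_congr rfl this, Finset.sum_const, Finset.card_range, nsmul_eq_mul]
  -- the second difference quotient
  set ψ : F := (V - algebraMap L F b) * w⁻¹ with hψ
  have hψO : ψ ∈ D.O :=
    D.O.mul_mem _ _ (sub_mem (ℓ.mem v) (D.algebraMap_mem ⟨b, hbu.1⟩))
      (D.inv_mem_of_redF_ne_zero (χ.redF_w_ne_zero hR))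
  have hψreg : ∀ P : Place L F, D.r P = Q → 0 ≤ P.ord ψ := by
    intro P hP
    by_cases hz : V - algebraMap L F b = 0
    · rw [hψ, hz, zero_mul, Place.ord_zero]
    have hVP : V ∈ P.toValuationSubring := ℓ.mem_place hordv.ge hP
    have h1 : 0 ≤ P.ord (V - algebraMap L F b) :=
      FF.ord_nonneg_of_mem P (sub_mem hVP (P.algebraMap_mem' b))
    rw [hψ, P.ord_mul hz (inv_ne_zero hw0), P.ord_inv, χ.ord_w hR hP]
    split_ifs with hPR
    · subst hPR
      have hval0 : val P (V - algebraMap L F b) = 0 := by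
        rw [val_sub P hVreg (P.algebraMap_mem' b), val_algebraMap, sub_self]
      rcases (val_eq_zero_iff P (sub_mem hVreg (P.algebraMap_mem' b))).1 hval0 with h | h
      · exact absurd h hz
      · omega
    · omega
  have hdA : val R ψ ∈ A := P2loc.val_mem D hψO Q hψreg hR
  have hψR : ψ ∈ R.toValuationSubring := FF.mem_of_ord_nonneg R (hψreg R hR)
  -- the decomposition of the difference quotient
  have hdecomp : ℓ.diffQuot hu t R = G * V + algebraMap L F (c ^ e) * ψ := by
    rw [diffQuot, hvalt, hιt, hψ, map_mul, map_pow]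
    have e1 : U ^ e * V - algebraMap L F c ^ e * algebraMap L F b =
        G * w * V + algebraMap L F c ^ e * (V - algebraMap L F b) := by
      rw [hGw]; ring
    rw [e1, add_mul]
    congr 1
    · rw [mul_assoc, mul_comm V, ← mul_assoc, mul_assoc G, mul_inv_cancel₀ hw0, mul_one]
    · ring
  have hreg1 : G * V ∈ R.toValuationSubring := mul_mem hGreg hVreg
  have hreg2 : algebraMap L F (c ^ e) * ψ ∈ R.toValuationSubring :=
    mul_mem (R.algebraMap_mem' _) hψR
  refine ⟨?_, ?_⟩
  · rw [hdecomp]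
    exact FF.ord_nonneg_of_mem R (add_mem hreg1 hreg2)
  have hval : val R (ℓ.diffQuot hu t R) = (e : L) * c ^ (e - 1) * b + c ^ e * val R ψ := by
    rw [hdecomp, val_add R hreg1 hreg2, val_mul R hGreg hVreg, val_mul R (R.algebraMap_mem' _) hψR,
      val_algebraMap, hvalG]
  -- the unit
  set d : L := val R ψ with hd
  have hεv : A.valuation ((e : L) * b + c * d) = 1 := by
    have hbv := valuation_eq_one_of_mem_of_inv_mem A hb0 hbu.1 hbu.2
    have h1 : A.valuation ((e : L) * b) = 1 := by rw [map_mul, hunit, hbv, one_mul]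
    have hcv : A.valuation c < 1 := valuation_lt_one_of_mem_maximalIdeal A hcA hcm
    have hdv : A.valuation d ≤ 1 := (A.valuation_le_one_iff d).2 hdA
    have h2 : A.valuation (c * d) < 1 := by
      rw [map_mul]
      calc A.valuation c * A.valuation d ≤ A.valuation c * 1 := by gcongr
        _ = A.valuation c := mul_one _
        _ < 1 := hcv
    rw [Valuation.map_add_eq_of_lt_left _ (by rw [h1]; exact h2), h1]
  refine ⟨(e : L) * b + c * d, hεv, ?_⟩
  rw [hval]
  have : c ^ e = c ^ (e - 1) * c := by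
    rw [← pow_succ]
    congr 1
    omega
  rw [this]
  ring

/-- the value of a constant function on the disc of `Q`, in terms of the coordinate: if `t` has
order `e ≥ 0` at `Q` then `(ι t)(R) = b · u(R)^e` with `b ∈ Aˣ` -/
theorem val_eq_mul_pow {t : Fk} {e : ℕ} (ht0 : t ≠ 0) (ht : Q.ord t = e)
    {R : Place L F} (hR : D.r R = Q) :
    ∃ b : L, A.valuation b = 1 ∧ val R (ℓ.ι t) = b * ((ℓ.chart u hu).coord R) ^ e := by
  set χ := ℓ.chart u hu with hχ
  have hu0 : u ≠ 0 := χ.u_ne_zero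
  set v : Fk := t * (u ^ e)⁻¹ with hv
  have hue0 : u ^ e ≠ 0 := pow_ne_zero _ hu0
  have hv0 : v ≠ 0 := mul_ne_zero ht0 (inv_ne_zero hue0)
  have hordv : Q.ord v = 0 := by
    rw [hv, Q.ord_mul ht0 (inv_ne_zero hue0), Q.ord_inv, ← zpow_natCast, Q.ord_zpow, hu, ht]
    ring
  have htv : t = u ^ e * v := by
    rw [hv, mul_comm t, ← mul_assoc, mul_inv_cancel₀ hue0, one_mul]
  have hbu := ℓ.val_unit hv0 hordv hR
  have hUreg : ℓ.ι u ∈ R.toValuationSubring := χ.U_mem_place hR
  have hVord : R.ord (ℓ.ι v) = 0 := ℓ.ord_eq_zero hordv hR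
  have hb0 : val R (ℓ.ι v) ≠ 0 := val_ne_zero R (ℓ.ι_ne_zero hv0) hVord
  refine ⟨val R (ℓ.ι v), valuation_eq_one_of_mem_of_inv_mem A hb0 hbu.1 hbu.2, ?_⟩
  conv_lhs => rw [htv]
  rw [map_mul, map_pow, val_mul R (pow_mem hUreg e) (mem_of_ord_eq_zero R hVord),
    val_pow R hUreg, mul_comm]
  rfl

open Classical in
/-- the order of `ι u` at a point of the disc: `1` at the point with coordinate `0`, else `0` -/
theorem ord_ι_chart {R : Place L F} (hR : D.r R = Q) :
    R.ord (ℓ.ι u) = if (ℓ.chart u hu).coord R = 0 then 1 else 0 := by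
  set χ := ℓ.chart u hu with hχ
  have hUreg : ℓ.ι u ∈ R.toValuationSubring := χ.U_mem_place hR
  have hU0 : ℓ.ι u ≠ 0 := ℓ.ι_ne_zero χ.u_ne_zero
  split_ifs with hc
  · have h1 := χ.ord_sub_coord hR hR
    rw [if_pos rfl, hc, map_zero, sub_zero] at h1
    exact h1
  · have hval : val R (ℓ.ι u) ≠ 0 := hc
    have h0 : 0 ≤ R.ord (ℓ.ι u) := FF.ord_nonneg_of_mem R hUreg
    by_contra hne
    have hpos : 0 < R.ord (ℓ.ι u) := lt_of_le_of_ne h0 (Ne.symm hne)
    exact hval (val_eq_zero_of_ord_pos R hpos)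

/-- **the adjunction local term.**  `τ` a non-constant function, `W` the coefficient at `Q` of
the divisor of `dτ` (`ord_Q (τ - τ(Q)) - 1`, resp. `ord_Q τ - 1` at a pole), `R` a point of the
disc of `Q` which is not a pole of `ι τ`: the value at `R` of `(ι τ - τ(R)) / (ι u - u(R))` is a
unit times `u(R)^W`. -/
theorem adjunction_term [CharZero (IsLocalRing.ResidueField A)]
    (hconst : ∀ c : IsLocalRing.ResidueField A, ∃ a : L,
      ℓ.ι (algebraMap (IsLocalRing.ResidueField A) Fk c) = algebraMap L F a)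
    {τ : Fk} (hτ : ∀ c : IsLocalRing.ResidueField A, τ ≠ algebraMap _ Fk c)
    {R : Place L F} (hR : D.r R = Q) (hRτ : 0 ≤ R.ord (ℓ.ι τ)) {W : ℤ}
    (hW₁ : ∀ c : IsLocalRing.ResidueField A, 0 < Q.ord (τ - algebraMap _ Fk c) →
      W = Q.ord (τ - algebraMap _ Fk c) - 1)
    (hW₂ : Q.ord τ < 0 → W = Q.ord τ - 1) :
    0 ≤ R.ord ((ℓ.ι τ - algebraMap L F (val R (ℓ.ι τ))) * ((ℓ.chart u hu).w R)⁻¹) ∧
    ∃ ε : L, A.valuation ε = 1 ∧
      val R ((ℓ.ι τ - algebraMap L F (val R (ℓ.ι τ))) * ((ℓ.chart u hu).w R)⁻¹) =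
        ε * ((ℓ.chart u hu).coord R) ^ W := by
  classical
  set χ := ℓ.chart u hu with hχ
  set c : L := χ.coord R with hc
  set w : F := χ.w R with hw
  have hw0 : w ≠ 0 := χ.w_ne_zero hR
  by_cases hpole : Q.ord τ < 0
  · -- a pole of `τ` at `Q`: use `1/τ`
    have hτ0 : τ ≠ 0 := by
      rintro rfl
      rw [Place.ord_zero] at hpole
      exact lt_irrefl _ hpole
    set t : Fk := τ⁻¹ with ht
    have ht0 : t ≠ 0 := inv_ne_zero hτ0
    set e : ℕ := (-Q.ord τ).toNat with he
    have hecast : (e : ℤ) = -Q.ord τ := Int.toNat_of_nonneg (by omega)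
    have he1 : 1 ≤ e := by omega
    have hordt : Q.ord t = e := by rw [ht, Q.ord_inv, hecast]
    have hWe : W = -(e : ℤ) - 1 := by rw [hW₂ hpole, hecast]; ring
    have hιτ0 : ℓ.ι τ ≠ 0 := ℓ.ι_ne_zero hτ0
    have hιt : ℓ.ι t = (ℓ.ι τ)⁻¹ := by rw [ht, map_inv₀]
    have hordτ : R.ord (ℓ.ι τ) = 0 := by
      have h1 : 0 ≤ R.ord (ℓ.ι t) := ℓ.ord_nonneg (by rw [hordt]; positivity) hR
      rw [hιt, R.ord_inv] at h1
      omega
    have hτreg : ℓ.ι τ ∈ R.toValuationSubring := mem_of_ord_eq_zero R hordτ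
    set a : L := val R (ℓ.ι τ) with ha
    have ha0 : a ≠ 0 := val_ne_zero R hιτ0 hordτ
    have hvalt : val R (ℓ.ι t) = a⁻¹ := by rw [hιt, val_inv R hιτ0 hordτ]
    obtain ⟨b, hbv, hvaltb₀⟩ := ℓ.val_eq_mul_pow hu ht0 hordt hR
    rw [hvalt] at hvaltb₀
    have hvaltb : a⁻¹ = b * c ^ e := hvaltb₀
    have hb0 : b ≠ 0 := by
      rintro rfl
      rw [map_zero] at hbv
      exact zero_ne_one hbv
    have hc0 : c ≠ 0 := by
      intro h0
      rw [h0, zero_pow (by omega), mul_zero] at hvaltb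
      exact (inv_ne_zero ha0) hvaltb
    obtain ⟨hord₁, ε₁, hε₁, hval₁₀⟩ :=
      ℓ.self_term hu he1 hordt (valuation_natCast_eq_one A (by omega)) hR
    have hval₁ : val R (ℓ.diffQuot hu t R) = ε₁ * c ^ (e - 1) := hval₁₀
    have hident : (ℓ.ι τ - algebraMap L F a) * w⁻¹ =
        ℓ.diffQuot hu t R * (ℓ.ι τ * algebraMap L F (-a)) := by
      rw [diffQuot, ← hχ, ← hw, hvalt, hιt, map_neg, map_inv₀]
      have haF : algebraMap L F a ≠ 0 := (map_ne_zero _).2 ha0
      field_simp
      ring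
    have hdq : ℓ.diffQuot hu t R ∈ R.toValuationSubring := FF.mem_of_ord_nonneg R hord₁
    have hreg2 : ℓ.ι τ * algebraMap L F (-a) ∈ R.toValuationSubring :=
      mul_mem hτreg (R.algebraMap_mem' _)
    refine ⟨?_, ?_⟩
    · rw [hident]
      exact FF.ord_nonneg_of_mem R (mul_mem hdq hreg2)
    · refine ⟨-(ε₁ * (b⁻¹) ^ 2), ?_, ?_⟩
      · rw [Valuation.map_neg, map_mul, map_pow, map_inv₀, hε₁, hbv]
        simp
      · rw [hident, val_mul R hdq hreg2, val_mul R hτreg (R.algebraMap_mem' _), val_algebraMap,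
          hval₁, ← ha, hWe]
        have hainv : a = b⁻¹ * (c ^ e)⁻¹ := by
          rw [← inv_inv a, hvaltb, mul_inv]
        have hzp : c ^ (-(e : ℤ) - 1) = (c ^ (e + 1))⁻¹ := by
          rw [show -(e : ℤ) - 1 = -((e + 1 : ℕ) : ℤ) by push_cast; ring, zpow_neg, zpow_natCast]
        have hce : c ^ (e + 1) = c ^ (e - 1) * c * c := by
          rw [mul_assoc, ← pow_two, ← pow_add]
          congr 1
          omega
        have hce' : c ^ e = c ^ (e - 1) * c := by
          rw [← pow_succ]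
          congr 1
          omega
        rw [hzp, hainv, hce, hce']
        have hcp : c ^ (e - 1) ≠ 0 := pow_ne_zero _ hc0
        field_simp
  · -- `τ` regular at `Q`
    push Not at hpole
    have hτmem : τ ∈ Q.toValuationSubring := FF.mem_of_ord_nonneg Q hpole
    set c₀ : IsLocalRing.ResidueField A := val Q τ with hc₀
    set t : Fk := τ - algebraMap _ Fk c₀ with ht
    have ht0 : t ≠ 0 := sub_ne_zero.2 (hτ c₀)
    have hpos : 0 < Q.ord t := by
      rcases (val_eq_iff Q hτmem c₀).1 rfl with h | h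
      · exact absurd h (hτ c₀)
      · exact h
    set e : ℕ := (Q.ord t).toNat with he
    have hecast : (e : ℤ) = Q.ord t := Int.toNat_of_nonneg hpos.le
    have he1 : 1 ≤ e := by omega
    have hWe : W = ((e - 1 : ℕ) : ℤ) := by
      rw [hW₁ c₀ hpos, ← ht, ← hecast]
      omega
    obtain ⟨a, ha⟩ := hconst c₀
    have hιt : ℓ.ι t = ℓ.ι τ - algebraMap L F a := by rw [ht, map_sub, ha]
    have htreg : ℓ.ι t ∈ R.toValuationSubring := ℓ.mem_place hpos.le hR
    have hτeq : ℓ.ι τ = ℓ.ι t + algebraMap L F a := by rw [hιt, sub_add_cancel]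
    have hvalτ : val R (ℓ.ι τ) = val R (ℓ.ι t) + a := by
      rw [hτeq, val_add R htreg (R.algebraMap_mem' a), val_algebraMap]
    have hident : (ℓ.ι τ - algebraMap L F (val R (ℓ.ι τ))) * w⁻¹ = ℓ.diffQuot hu t R := by
      rw [diffQuot, ← hχ, ← hw, hvalτ, map_add, hτeq]
      congr 1
      ring
    obtain ⟨hord₁, ε₁, hε₁, hval₁⟩ :=
      ℓ.self_term hu he1 hecast.symm (valuation_natCast_eq_one A (by omega)) hR
    rw [hident]
    refine ⟨hord₁, ε₁, hε₁, ?_⟩
    rw [hval₁, hWe, zpow_natCast]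

/-- under the hypotheses of `adjunction_term`, at a point with non-zero coordinate the function
`ι τ - τ(R)` has a simple zero at `R` -/
theorem ord_sub_val_eq_one [CharZero (IsLocalRing.ResidueField A)]
    (hconst : ∀ c : IsLocalRing.ResidueField A, ∃ a : L,
      ℓ.ι (algebraMap (IsLocalRing.ResidueField A) Fk c) = algebraMap L F a)
    {τ : Fk} (hτ : ∀ c : IsLocalRing.ResidueField A, τ ≠ algebraMap _ Fk c)
    {R : Place L F} (hR : D.r R = Q) (hRτ : 0 ≤ R.ord (ℓ.ι τ))
    (hc : (ℓ.chart u hu).coord R ≠ 0) :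
    R.ord (ℓ.ι τ - algebraMap L F (val R (ℓ.ι τ))) = 1 := by
  classical
  -- a value of `W` satisfying the two hypotheses
  obtain ⟨W, hW₁, hW₂⟩ : ∃ W : ℤ,
      (∀ c : IsLocalRing.ResidueField A, 0 < Q.ord (τ - algebraMap _ Fk c) →
        W = Q.ord (τ - algebraMap _ Fk c) - 1) ∧ (Q.ord τ < 0 → W = Q.ord τ - 1) := by
    by_cases hpole : Q.ord τ < 0
    · refine ⟨Q.ord τ - 1, fun c hpos => ?_, fun _ => rfl⟩
      exfalso
      rw [ord_sub_algebraMap_of_neg Q hpole c] at hpos
      omega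
    · push Not at hpole
      refine ⟨Q.ord (τ - algebraMap _ Fk (val Q τ)) - 1, fun c hpos => ?_, fun h => ?_⟩
      · have hmem : τ ∈ Q.toValuationSubring := FF.mem_of_ord_nonneg Q hpole
        have : val Q τ = c := (val_eq_iff Q hmem c).2 (Or.inr hpos)
        rw [this]
      · omega
  obtain ⟨hord, ε, hε, hval⟩ := ℓ.adjunction_term hu hconst hτ hR hRτ hW₁ hW₂
  set T : F := ℓ.ι τ - algebraMap L F (val R (ℓ.ι τ)) with hT
  set w : F := (ℓ.chart u hu).w R with hw
  have hw0 : w ≠ 0 := (ℓ.chart u hu).w_ne_zero hR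
  have hε0 : ε ≠ 0 := by
    rintro rfl
    rw [map_zero] at hε
    exact zero_ne_one hε
  have hvne : val R (T * w⁻¹) ≠ 0 := by
    rw [hval]
    exact mul_ne_zero hε0 (zpow_ne_zero _ hc)
  have hT0 : T ≠ 0 := by
    rintro h0
    rw [h0, zero_mul, val_zero] at hvne
    exact hvne rfl
  have h0 : R.ord (T * w⁻¹) = 0 := by
    by_contra hne
    have hpos : 0 < R.ord (T * w⁻¹) := lt_of_le_of_ne hord (Ne.symm hne)
    exact hvne (val_eq_zero_of_ord_pos R hpos)
  rw [R.ord_mul hT0 (inv_ne_zero hw0), R.ord_inv, (ℓ.chart u hu).ord_w hR hR, if_pos rfl] at h0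
  omega

end SelfTerm

/-- **change of the local parameter in the leading coefficient**: if `T` has a simple zero at `R`
then the leading coefficient of `φ` at `R` in the coordinate of the chart is the one in the
coordinate `T` times the `n`-th power of `(T / (U - U(R)))(R)`, `n = ord_R φ`. -/
theorem _root_.Fermat.Agent.S17lib.P2loc.DiscChart.lcVal_eq_mul_zpow (χ : DiscChart D Q)
    {φ T : F} (hφ : φ ≠ 0) {R : Place L F} (hR : D.r R = Q) (hT : R.ord T = 1) :
    χ.lcVal φ R = val R (φ * T ^ (-(R.ord φ))) * (val R (T * (χ.w R)⁻¹)) ^ (R.ord φ) := by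
  have hT0 : T ≠ 0 := by
    rintro rfl
    rw [Place.ord_zero] at hT
    exact zero_ne_one hT
  have hw0 : χ.w R ≠ 0 := χ.w_ne_zero hR
  have hordw : R.ord (χ.w R) = 1 := by rw [χ.ord_w hR hR, if_pos rfl]
  have h1 : R.ord (φ * T ^ (-(R.ord φ))) = 0 := by
    rw [R.ord_mul hφ (zpow_ne_zero _ hT0), R.ord_zpow, hT]; ring
  have h2 : R.ord (T * (χ.w R)⁻¹) = 0 := by
    rw [R.ord_mul hT0 (inv_ne_zero hw0), R.ord_inv, hT, hordw]; ring
  have h3 : R.ord ((T * (χ.w R)⁻¹) ^ (R.ord φ)) = 0 := by rw [R.ord_zpow, h2, mul_zero]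
  have hid : φ * χ.w R ^ (-(R.ord φ)) =
      (φ * T ^ (-(R.ord φ))) * (T * (χ.w R)⁻¹) ^ (R.ord φ) := by
    rw [mul_zpow, inv_zpow, zpow_neg, zpow_neg]
    have hTn : T ^ (R.ord φ) ≠ 0 := zpow_ne_zero _ hT0
    field_simp
  rw [DiscChart.lcVal, hid, val_mul R (mem_of_ord_eq_zero R h1) (mem_of_ord_eq_zero R h3),
    val_zpow R (mul_ne_zero hT0 (inv_ne_zero hw0)) h2]

end ConstLift

end Fermat.Agent.S17lib.P2loc
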