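/-
S17lib / P2loc / Wrap  (helper8) — Project G, block DEG: the `L`-RATIONAL WRAPPER of (P2)-local,
in helper6's vocabulary (`DegChain/Points.lean`: `KPt`, `locInt`; `DegChain/Dict.lean`:
`Realizes`).

Setting: `k ⊆ L ⊆ Ω`, `F / k` a function field, `FΩ / Ω` its constant extension
(`ι : F →ₐ[k] FΩ`), `x` a place of `L`, `A` a valuation subring of `Ω` with `A ∩ L = O_x`,
`D : RedDatum A FΩ F` the constant reduction, `ℓ : ConstLift D` with underlying map `ι`.

* `ord_r_eq_ord_red`: if `S'` realizes the `L`-point `S`, the reduction `D.r S'` and the reduction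
  `S.red x` have the same order function;
* `val_chosenUniformizer`: the coordinate of `S'` in the chart of the chosen uniformizer is
  `S.coord x`;
* **`p2_wrap`**: the local relation (P2) at `x`, exactly the hypothesis `hloc` of
  `DegChain.consistency`; `localP2_of_realizes`: the same as `DegChain.LocalP2`.
-/
import Mathlib
import Fermat.Agent.S17lib.P2loc.Const
import Fermat.Agent.S17lib.DegChain.P2Stmt

set_option autoImplicit false
set_option linter.unusedSectionVars false
set_option linter.style.haveILetI false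

noncomputable section

namespace Fermat.Agent.S17lib.P2loc

open AlgebraicCurve IsLocalRing
open Fermat.Agent.ProgramR Fermat.Agent.ProgramR.RHLocal Fermat.Agent.S18lib
open Fermat.Agent.S15lib.Weil Fermat.Agent.S17lib.DegChain

section General

/-- two places of the same field (possibly over different constant fields) with comparable
valuation rings have the same order function -/
theorem ord_eq_of_nonneg_imp {K₁ K₂ F : Type*} [Field K₁] [Field K₂] [Field F] [Algebra K₁ F]
    [Algebra K₂ F] (Q : Place K₁ F) (p : Place K₂ F) (h : ∀ f, 0 ≤ Q.ord f → 0 ≤ p.ord f)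
    (f : F) : Q.ord f = p.ord f := by
  have h0 : ∀ f, Q.ord f = 0 → p.ord f = 0 := by
    intro f hf
    have h1 := h f hf.ge
    have h2 := h f⁻¹ (by rw [Q.ord_inv, hf, neg_zero])
    rw [p.ord_inv] at h2
    omega
  set u : F := ((chosenUniformizer Q : Q.toValuationSubring) : F) with hu
  have hQu : Q.ord u = 1 := ord_chosenUniformizer Q
  have hu0 : u ≠ 0 := by
    rintro h0'
    rw [h0', Place.ord_zero] at hQu
    exact zero_ne_one hQu
  -- `p.ord f = Q.ord f * p.ord u`
  have key : ∀ f : F, f ≠ 0 → p.ord f = Q.ord f * p.ord u := by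
    intro f hf
    set v : F := f * u ^ (-(Q.ord f)) with hv
    have hv0 : v ≠ 0 := mul_ne_zero hf (zpow_ne_zero _ hu0)
    have hQv : Q.ord v = 0 := by
      rw [hv, Q.ord_mul hf (zpow_ne_zero _ hu0), Q.ord_zpow, hQu]; ring
    have hpv := h0 v hQv
    have hf' : f = v * u ^ (Q.ord f) := by
      rw [hv, mul_assoc, ← zpow_add₀ hu0, neg_add_cancel, zpow_zero, mul_one]
    conv_lhs => rw [hf']
    rw [p.ord_mul hv0 (zpow_ne_zero _ hu0), hpv, p.ord_zpow, zero_add]
  set ϖ : F := ((chosenUniformizer p : p.toValuationSubring) : F) with hϖ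
  have hpϖ : p.ord ϖ = 1 := ord_chosenUniformizer p
  have hϖ0 : ϖ ≠ 0 := by
    rintro h0'
    rw [h0', Place.ord_zero] at hpϖ
    exact zero_ne_one hpϖ
  have ha : p.ord u = 1 := by
    have h1 := key ϖ hϖ0
    rw [hpϖ] at h1
    have h2 : 0 ≤ p.ord u := h u (by rw [hQu]; exact zero_le_one)
    have h3 : p.ord u ∣ 1 := ⟨Q.ord ϖ, by rw [mul_comm]; exact h1⟩
    have h4 := Int.eq_one_of_dvd_one h2 h3
    exact h4
  rcases eq_or_ne f 0 with rfl | hf
  · rw [Place.ord_zero, Place.ord_zero]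
  · rw [key f hf, ha, mul_one]

/-- the value of a function from a `HasValueAt`-type statement -/
theorem val_eq_of_or {K F : Type*} [Field K] [Field F] [Algebra K F] [RatPlaces K F]
    (P : Place K F) {g : F} {c : K}
    (h : g = algebraMap K F c ∨ 0 < P.ord (g - algebraMap K F c)) :
    g ∈ P.toValuationSubring ∧ val P g = c := by
  have hmem : g ∈ P.toValuationSubring := by
    rcases h with h | h
    · rw [h]; exact P.algebraMap_mem' c
    · have h1 : g - algebraMap K F c ∈ P.toValuationSubring := FF.mem_of_ord_nonneg P h.le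
      have h2 := add_mem h1 (P.algebraMap_mem' c)
      rwa [sub_add_cancel] at h2
  exact ⟨hmem, (val_eq_iff P hmem c).2 h⟩

end General

variable {k L Ω F FΩ : Type*} [Field k] [Field L] [Field Ω] [Field F] [Field FΩ]
  [Algebra k L] [Algebra L Ω] [Algebra k Ω] [IsScalarTower k L Ω] [Algebra k F]
  [Algebra Ω FΩ] [Algebra k FΩ] [IsScalarTower k Ω FΩ] {ι : F →ₐ[k] FΩ}
  (hrat : ∀ P : Place k F, RatRes k P.toValuationSubring)
  {A : ValuationSubring Ω} [Algebra (IsLocalRing.ResidueField A) F]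
  [HasPrincipalDivisors Ω FΩ] [HasPrincipalDivisors (IsLocalRing.ResidueField A) F]
  [RatPlaces Ω FΩ] [RatPlaces (IsLocalRing.ResidueField A) F]
  {D : RedDatum A FΩ F} (ℓ : ConstLift D) (hℓ : ∀ f, ℓ.ι f = ι f)
  (x : Place k L) (hA : ∀ l : L, algebraMap L Ω l ∈ A ↔ l ∈ x.toValuationSubring)

section Dictionary

/-- the value of `ι f` at the `Ω`-point of a generic `L`-point -/
theorem val_gen {σ : F →ₐ[k] L} {hσ : σ.toRingHom.IsIntegral} {S' : Place Ω FΩ}
    (hreal : Realizes ι (KPt.gen σ hσ : KPt k F L) S') (f : F) :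
    ι f ∈ S'.toValuationSubring ∧ val S' (ι f) = algebraMap L Ω (σ f) :=
  val_eq_of_or S' (hreal.gen_val f)

/-- the `Ω`-point of a generic `L`-point is a generic point -/
theorem ord_gen {σ : F →ₐ[k] L} {hσ : σ.toRingHom.IsIntegral} {S' : Place Ω FΩ}
    (hreal : Realizes ι (KPt.gen σ hσ : KPt k F L) S') {f : F} (hf : f ≠ 0) :
    S'.ord (ι f) = 0 := by
  obtain ⟨hmem, hval⟩ := val_gen hreal f
  have hne : val S' (ι f) ≠ 0 := by
    rw [hval]
    exact (map_ne_zero _).2 ((map_ne_zero σ).2 hf)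
  have h0 : 0 ≤ S'.ord (ι f) := FF.ord_nonneg_of_mem S' hmem
  by_contra hne'
  have hpos : 0 < S'.ord (ι f) := lt_of_le_of_ne h0 (Ne.symm hne')
  exact hne (val_eq_zero_of_ord_pos S' hpos)

include hℓ hA in
/-- **the dictionary for reductions**: if `S'` realizes `S`, the reduction of `S'` modulo `A` and
the reduction of `S` at `x` have the same order function -/
theorem ord_r_eq_ord_red {S : KPt k F L} {S' : Place Ω FΩ} (hreal : Realizes ι S S') (f : F) :
    (D.r S').ord f = (S.red x).ord f := by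
  cases S with
  | const p =>
    refine ord_eq_of_nonneg_imp (D.r S') p (fun f hf => ?_) f
    have := ℓ.ord_nonneg hf (rfl : D.r S' = D.r S')
    rw [hℓ, hreal.const_ord] at this
    exact this
  | gen σ hσ =>
    have hgen : ∀ f : F, f ≠ 0 → S'.ord (ℓ.ι f) = 0 := fun f hf => by
      rw [hℓ]; exact ord_gen hreal hf
    refine ord_eq_of_nonneg_imp (D.r S') (x.restrictAlong σ hσ) (fun f hf => ?_) f
    have h1 := (ℓ.val_mem_iff (rfl : D.r S' = D.r S') hgen f).2 hf
    rw [hℓ, (val_gen hreal f).2, hA] at h1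
    exact FF.ord_nonneg_of_mem _ ((mem_restrictAlong_iff σ hσ x f).2 h1)

/-- **the dictionary for coordinates**: the value at `S'` of the chosen uniformizer of the
reduction of `S` is the coordinate of `S` -/
theorem val_chosenUniformizer {S : KPt k F L} {S' : Place Ω FΩ} (hreal : Realizes ι S S') :
    val S' (ι ((chosenUniformizer (S.red x) : (S.red x).toValuationSubring) : F)) =
      algebraMap L Ω (S.coord hrat x) :=
  (val_eq_of_or S' (hreal.hasValueAt_coord hrat x)).2

include hrat hℓ hA in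
/-- **an `L`-point is realized by at most one place of `FΩ`** (same reduction, same coordinate) -/
theorem eq_of_realizes {S : KPt k F L} {S' S'' : Place Ω FΩ} (h' : Realizes ι S S')
    (h'' : Realizes ι S S'') : S' = S'' := by
  have e' : ∀ f, (D.r S').ord f = (S.red x).ord f := fun f => ord_r_eq_ord_red ℓ hℓ x hA h' f
  have e'' : ∀ f, (D.r S'').ord f = (S.red x).ord f := fun f => ord_r_eq_ord_red ℓ hℓ x hA h'' f
  have hQ : D.r S'' = D.r S' := by
    apply Place.ext; ext f
    rw [FF.mem_iff_ord_nonneg, FF.mem_iff_ord_nonneg, e', e'']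
  have hu : (D.r S').ord (((chosenUniformizer (S.red x) : (S.red x).toValuationSubring) : F)) = 1 := by
    rw [e']; exact ord_chosenUniformizer (S.red x)
  refine (ℓ.chart _ hu).coord_injective rfl hQ ?_
  show val S' (ℓ.ι _) = val S'' (ℓ.ι _)
  rw [hℓ, val_chosenUniformizer hrat x h', val_chosenUniformizer hrat x h'']

/-- distinct `L`-points are realized by distinct places: a generic point and a constant point -/
theorem ne_of_realizes_gen_const {σ : F →ₐ[k] L} {hσ : σ.toRingHom.IsIntegral} {p : Place k F}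
    {S' S'' : Place Ω FΩ} (h' : Realizes ι (KPt.gen σ hσ : KPt k F L) S')
    (h'' : Realizes ι (KPt.const p : KPt k F L) S'') : S' ≠ S'' := by
  rintro rfl
  have h1 := ord_gen h' (f := ((chosenUniformizer p : p.toValuationSubring) : F)) (by
    intro h0
    have := ord_chosenUniformizer p
    rw [h0, Place.ord_zero] at this
    exact zero_ne_one this)
  rw [h''.const_ord, ord_chosenUniformizer] at h1
  exact one_ne_zero h1

end Dictionary

section Main

include hA in
/-- descent of units: an element of `L` which is a unit of `A` has order `0` at `x` -/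
theorem ord_eq_zero_of_valuation_eq_one {l : L} (h : A.valuation (algebraMap L Ω l) = 1) :
    x.ord l = 0 := by
  obtain ⟨h1, h2⟩ := mem_and_inv_mem_of_valuation_eq_one A h
  have e1 : 0 ≤ x.ord l := FF.ord_nonneg_of_mem x ((hA l).1 h1)
  rw [← map_inv₀] at h2
  have e2 : 0 ≤ x.ord l⁻¹ := FF.ord_nonneg_of_mem x ((hA l⁻¹).1 h2)
  rw [x.ord_inv] at e2
  omega

/-- the order of a product of powers -/
theorem ord_prod_zpow {K E : Type*} [Field K] [Field E] [Algebra K E] (y : Place K E)
    {J : Type*} (s : Finset J) (a : J → E) (n : J → ℤ) (ha : ∀ i ∈ s, a i ≠ 0) :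
    y.ord (∏ i ∈ s, a i ^ n i) = ∑ i ∈ s, n i * y.ord (a i) := by
  rw [ord_finset_prod y s _ fun i hi => zpow_ne_zero _ (ha i hi)]
  exact Finset.sum_congr rfl fun i _ => y.ord_zpow _ _

include hℓ hA in
/-- **(P2)-local, `L`-rational form** (= the hypothesis `hloc` of `DegChain.consistency`). -/
theorem p2_wrap [CharZero (IsLocalRing.ResidueField A)]
    (hk' : ∀ c' : IsLocalRing.ResidueField A, ∃ c : k,
      algebraMap (IsLocalRing.ResidueField A) F c' = algebraMap k F c)
    {I : Type*} [Fintype I] (pts : I → KPt k F L) (pl : I → Place Ω FΩ)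
    (hpl : Function.Injective pl) (hreal : ∀ i, Realizes ι (pts i) (pl i))
    (n : I → ℤ) {φ : FΩ} (hφ : φ ≠ 0) (hdiv₁ : ∀ i, (pl i).ord φ = n i)
    (hdiv₂ : ∀ P : Place Ω FΩ, (∀ i, pl i ≠ P) → P.ord φ = 0)
    (R : I) {σ : F →ₐ[k] L} {hσ : σ.toRingHom.IsIntegral} (hR : pts R = KPt.gen σ hσ)
    (r₀ : Place k F) (R₀' : Place Ω FΩ) (hr₀ : Realizes ι (KPt.const r₀ : KPt k F L) R₀')
    (hR₀ : ∀ i, pl i ≠ R₀')
    {τ : F} (hτ : ∀ c : k, τ ≠ algebraMap k F c) (Wτ : Divisor k F)
    (hW₁ : ∀ (p : Place k F) (c : k), 0 < p.ord (τ - algebraMap k F c) →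
      Wτ p = p.ord (τ - algebraMap k F c) - 1)
    (hW₂ : ∀ p : Place k F, p.ord τ < 0 → Wτ p = p.ord τ - 1)
    (lam lam₀ : L)
    (hlam : algebraMap L Ω lam = val (pl R) (φ * (ι τ - cΩ Ω FΩ (σ τ)) ^ (-(n R))))
    (hlam₀ : algebraMap L Ω lam₀ = val R₀' φ) :
    x.ord lam - x.ord lam₀ +
        n R * Wτ ((pts R).red x) * locInt hrat x (pts R) (KPt.const ((pts R).red x)) =
      ∑ i, n i * locInt hrat x (pts i) (pts R)
        - ∑ i, n i * locInt hrat x (pts i) (KPt.const r₀) := by
  classical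
  -- the disc of `R`
  set Rp : Place Ω FΩ := pl R with hRp
  set Q := D.r Rp with hQ
  set qR : Place k F := (pts R).red x with hqR
  have hQq : ∀ f, Q.ord f = qR.ord f := fun f => ord_r_eq_ord_red ℓ hℓ x hA (hreal R) f
  set u : F := ((chosenUniformizer qR : qR.toValuationSubring) : F) with hu_def
  have hu : Q.ord u = 1 := by rw [hQq]; exact ord_chosenUniformizer qR
  set χ := ℓ.chart u hu with hχ
  -- the disc of the reference point
  set Q' := D.r R₀' with hQ'
  have hQ'q : ∀ f, Q'.ord f = r₀.ord f := fun f => ord_r_eq_ord_red ℓ hℓ x hA hr₀ f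
  set u' : F := ((chosenUniformizer r₀ : r₀.toValuationSubring) : F) with hu'_def
  have hu' : Q'.ord u' = 1 := by rw [hQ'q]; exact ord_chosenUniformizer r₀
  set χ' := ℓ.chart u' hu' with hχ'
  -- reductions
  have hri : ∀ i f, (D.r (pl i)).ord f = ((pts i).red x).ord f := fun i f =>
    ord_r_eq_ord_red ℓ hℓ x hA (hreal i) f
  have hred_iff : ∀ i, D.r (pl i) = Q ↔ (pts i).red x = qR := by
    intro i
    constructor
    · intro h
      apply Place.ext; ext f
      rw [FF.mem_iff_ord_nonneg, FF.mem_iff_ord_nonneg, ← hri, h, hQq]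
    · intro h
      apply Place.ext; ext f
      rw [FF.mem_iff_ord_nonneg, FF.mem_iff_ord_nonneg, hri, h, hQq]
  have hred_iff' : ∀ i, D.r (pl i) = Q' ↔ (pts i).red x = r₀ := by
    intro i
    constructor
    · intro h
      apply Place.ext; ext f
      rw [FF.mem_iff_ord_nonneg, FF.mem_iff_ord_nonneg, ← hri, h, hQ'q]
    · intro h
      apply Place.ext; ext f
      rw [FF.mem_iff_ord_nonneg, FF.mem_iff_ord_nonneg, hri, h, hQ'q]
  -- coordinates
  have hcoord : ∀ i, (pts i).red x = qR →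
      χ.coord (pl i) = algebraMap L Ω ((pts i).coord hrat x) := by
    intro i hi
    have := val_chosenUniformizer hrat x (hreal i)
    rw [chosenUniformizer_congr hi] at this
    show val (pl i) (ℓ.ι u) = _
    rw [hℓ]; exact this
  have hcoord' : ∀ i, (pts i).red x = r₀ →
      χ'.coord (pl i) = algebraMap L Ω ((pts i).coord hrat x) := by
    intro i hi
    have := val_chosenUniformizer hrat x (hreal i)
    rw [chosenUniformizer_congr hi] at this
    show val (pl i) (ℓ.ι u') = _
    rw [hℓ]; exact this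
  have hcoord₀ : χ'.coord R₀' = 0 := by
    have := val_chosenUniformizer hrat x hr₀
    rw [KPt.coord_const, map_zero] at this
    show val R₀' (ℓ.ι u') = 0
    rw [hℓ]; exact this
  -- abbreviations for the coordinates in `L`
  set cR : L := (pts R).coord hrat x with hcR
  have hcR0 : cR ≠ 0 := by
    rw [hcR, hR, KPt.coord_gen]
    refine (map_ne_zero σ).2 ?_
    intro h0
    have := ord_chosenUniformizer (x.restrictAlong σ hσ)
    rw [h0, Place.ord_zero] at this
    exact zero_ne_one this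
  have hcoordR : χ.coord Rp = algebraMap L Ω cR := hcoord R rfl
  -- the two index sets
  set J : Finset I := Finset.univ.filter fun i => n i ≠ 0 ∧ D.r (pl i) = Q ∧ i ≠ R with hJ
  set J' : Finset I := Finset.univ.filter fun i => n i ≠ 0 ∧ D.r (pl i) = Q' with hJ'
  have hdisc : discSupp D Q φ Rp = J.image pl := by
    ext S
    rw [mem_discSupp, Finset.mem_image]
    constructor
    · rintro ⟨h1, h2, h3⟩
      by_contra hno
      push Not at hno
      have hall : ∀ i, pl i ≠ S := by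
        intro i hi
        apply hno i _ hi
        rw [hJ, Finset.mem_filter]
        refine ⟨Finset.mem_univ _, ?_, ?_, ?_⟩
        · rw [← hdiv₁ i, hi]; exact h1
        · rw [hi]; exact h2
        · rintro rfl
          exact h3 hi.symm
      exact h1 (hdiv₂ S hall)
    · rintro ⟨i, hi, rfl⟩
      rw [hJ, Finset.mem_filter] at hi
      exact ⟨by rw [hdiv₁]; exact hi.2.1, hi.2.2.1, fun h => hi.2.2.2 (hpl h)⟩
  have hdisc' : discSupp D Q' φ R₀' = J'.image pl := by
    ext S
    rw [mem_discSupp, Finset.mem_image]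
    constructor
    · rintro ⟨h1, h2, h3⟩
      by_contra hno
      push Not at hno
      have hall : ∀ i, pl i ≠ S := by
        intro i hi
        apply hno i _ hi
        rw [hJ', Finset.mem_filter]
        refine ⟨Finset.mem_univ _, ?_, ?_⟩
        · rw [← hdiv₁ i, hi]; exact h1
        · rw [hi]; exact h2
      exact h1 (hdiv₂ S hall)
    · rintro ⟨i, hi, rfl⟩
      rw [hJ', Finset.mem_filter] at hi
      exact ⟨by rw [hdiv₁]; exact hi.2.1, hi.2.2, hR₀ i⟩
  -- the two products, as elements of `L`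
  set P : L := ∏ i ∈ J, (cR - (pts i).coord hrat x) ^ (n i) with hP
  set P' : L := ∏ i ∈ J', (0 - (pts i).coord hrat x) ^ (n i) with hP'
  have hprod : ∏ S ∈ discSupp D Q φ Rp, (χ.coord Rp - χ.coord S) ^ (S.ord φ) =
      algebraMap L Ω P := by
    rw [hdisc, Finset.prod_image (fun a _ b _ h => hpl h), hP, map_prod]
    refine Finset.prod_congr rfl fun i hi => ?_
    rw [hJ, Finset.mem_filter] at hi
    rw [hdiv₁, hcoordR, hcoord i ((hred_iff i).1 hi.2.2.1), ← map_sub, map_zpow₀]
  have hprod' : ∏ S ∈ discSupp D Q' φ R₀', (χ'.coord R₀' - χ'.coord S) ^ (S.ord φ) =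
      algebraMap L Ω P' := by
    rw [hdisc', Finset.prod_image (fun a _ b _ h => hpl h), hP', map_prod]
    refine Finset.prod_congr rfl fun i hi => ?_
    rw [hJ', Finset.mem_filter] at hi
    rw [hdiv₁, hcoord₀, hcoord' i ((hred_iff' i).1 hi.2.2), ← map_zero (algebraMap L Ω),
      ← map_sub, map_zpow₀]
  -- non-vanishing of the factors
  have hfac : ∀ i ∈ J, cR - (pts i).coord hrat x ≠ 0 := by
    intro i hi
    rw [hJ, Finset.mem_filter] at hi
    have h1 := χ.coord_sub_coord_ne_zero hi.2.2.1 (rfl : D.r Rp = Q)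
      (fun h : Rp = pl i => hi.2.2.2 (hpl h).symm)
    rw [hcoordR, hcoord i ((hred_iff i).1 hi.2.2.1), ← map_sub] at h1
    exact fun h0 => h1 (by rw [h0, map_zero])
  have hfac' : ∀ i ∈ J', 0 - (pts i).coord hrat x ≠ 0 := by
    intro i hi
    rw [hJ', Finset.mem_filter] at hi
    have h1 := χ'.coord_sub_coord_ne_zero hi.2.2 (rfl : D.r R₀' = Q')
      (fun h : R₀' = pl i => hR₀ i h.symm)
    rw [hcoord₀, hcoord' i ((hred_iff' i).1 hi.2.2), ← map_zero (algebraMap L Ω),
      ← map_sub] at h1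
    exact fun h0 => h1 (by rw [h0, map_zero])
  have hP0 : P ≠ 0 := Finset.prod_ne_zero_iff.2 fun i hi => zpow_ne_zero _ (hfac i hi)
  have hP'0 : P' ≠ 0 := Finset.prod_ne_zero_iff.2 fun i hi => zpow_ne_zero _ (hfac' i hi)
  -- the leading coefficient at the reference point
  have hordR₀ : R₀'.ord φ = 0 := hdiv₂ R₀' hR₀
  have hlc₀ : χ'.lcVal φ R₀' = algebraMap L Ω lam₀ := by
    rw [χ'.lcVal_of_ord_eq_zero hordR₀, hlam₀]
  have hlam₀0 : lam₀ ≠ 0 := by
    intro h0
    have := val_ne_zero R₀' hφ hordR₀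
    rw [← hlam₀, h0, map_zero] at this
    exact this rfl
  -- the point `R` is generic
  have hgenR : Realizes ι (KPt.gen σ hσ : KPt k F L) Rp := hR ▸ hreal R
  have hτ0 : τ ≠ 0 := by
    intro h0
    exact hτ 0 (by rw [h0, map_zero])
  have hvalτ : val Rp (ι τ) = algebraMap L Ω (σ τ) := (val_gen hgenR τ).2
  set T : FΩ := ι τ - cΩ Ω FΩ (σ τ) with hT
  have hTeq : T = ℓ.ι τ - algebraMap Ω FΩ (val Rp (ℓ.ι τ)) := by
    rw [hT, hℓ, hvalτ]; rfl
  have hτ' : ∀ c' : IsLocalRing.ResidueField A, τ ≠ algebraMap _ F c' := by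
    intro c' h
    obtain ⟨c, hc⟩ := hk' c'
    exact hτ c (h.trans hc)
  have hconst : ∀ c' : IsLocalRing.ResidueField A, ∃ a : Ω,
      ℓ.ι (algebraMap (IsLocalRing.ResidueField A) F c') = algebraMap Ω FΩ a := by
    intro c'
    obtain ⟨c, hc⟩ := hk' c'
    exact ⟨algebraMap k Ω c, by
      rw [hc, hℓ, AlgHom.commutes, IsScalarTower.algebraMap_apply k Ω FΩ]⟩
  have hRτ : 0 ≤ Rp.ord (ℓ.ι τ) := by rw [hℓ, ord_gen hgenR hτ0]
  have hcne : χ.coord Rp ≠ 0 := by
    rw [hcoordR]; exact (map_ne_zero _).2 hcR0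
  have hT1 : Rp.ord T = 1 := by
    rw [hTeq]
    exact ℓ.ord_sub_val_eq_one hu hconst hτ' (rfl : D.r Rp = Q) hRτ hcne
  set W : ℤ := Wτ qR with hW
  have hW₁' : ∀ c' : IsLocalRing.ResidueField A, 0 < Q.ord (τ - algebraMap _ F c') →
      W = Q.ord (τ - algebraMap _ F c') - 1 := by
    intro c' hpos
    obtain ⟨c, hc⟩ := hk' c'
    rw [hc, hQq] at hpos ⊢
    exact hW₁ qR c hpos
  have hW₂' : Q.ord τ < 0 → W = Q.ord τ - 1 := by
    rw [hQq]; exact hW₂ qR
  obtain ⟨-, ε₂, hε₂, hval₂⟩ :=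
    ℓ.adjunction_term hu hconst hτ' (rfl : D.r Rp = Q) hRτ hW₁' hW₂'
  rw [← hTeq, hcoordR] at hval₂
  have hlcR : χ.lcVal φ Rp = algebraMap L Ω lam * (ε₂ * algebraMap L Ω cR ^ W) ^ (n R) := by
    rw [χ.lcVal_eq_mul_zpow hφ (rfl : D.r Rp = Q) hT1, hdiv₁ R, ← hlam, hval₂]
  have hlam0 : lam ≠ 0 := by
    intro h0
    have h1 : Rp.ord (φ * T ^ (-(n R))) = 0 := by
      have hT0 : T ≠ 0 := by
        rintro h0'
        rw [h0', Place.ord_zero] at hT1
        exact zero_ne_one hT1
      rw [Rp.ord_mul hφ (zpow_ne_zero _ hT0), Rp.ord_zpow, hT1, hdiv₁ R]; ring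
    have hT0 : T ≠ 0 := by
      rintro h0'
      rw [h0', Place.ord_zero] at hT1
      exact zero_ne_one hT1
    have := val_ne_zero Rp (mul_ne_zero hφ (zpow_ne_zero _ hT0)) h1
    rw [← hlam, h0, map_zero] at this
    exact this rfl
  have hε₂0 : ε₂ ≠ 0 := by
    rintro rfl
    rw [map_zero] at hε₂
    exact zero_ne_one hε₂
  -- the comparison of the two points
  obtain ⟨ε, hε, hε', heq⟩ := p2_local_ratio χ χ' hφ (rfl : D.r Rp = Q) (rfl : D.r R₀' = Q')
  rw [hprod, hprod', hlc₀, hlcR] at heq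
  have hε0 : ε ≠ 0 := by
    rintro rfl
    rw [zero_mul] at heq
    have h1 : algebraMap L Ω lam ≠ 0 := (map_ne_zero _).2 hlam0
    have h2 : (ε₂ * algebraMap L Ω cR ^ W) ^ (n R) ≠ 0 :=
      zpow_ne_zero _ (mul_ne_zero hε₂0 (zpow_ne_zero _ ((map_ne_zero _).2 hcR0)))
    have h3 : algebraMap L Ω P' ≠ 0 := (map_ne_zero _).2 hP'0
    exact (mul_ne_zero (mul_ne_zero h1 h2) h3) heq
  have hεv : A.valuation ε = 1 := valuation_eq_one_of_mem_of_inv_mem A hε0 hε hε'
  -- the element of `L` which is a unit of `A`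
  set l : L := lam * cR ^ (W * n R) * P' * (lam₀ * P)⁻¹ with hl
  have hlval : algebraMap L Ω l = ε * (ε₂ ^ (n R))⁻¹ := by
    have hA0 : algebraMap L Ω lam₀ * algebraMap L Ω P ≠ 0 :=
      mul_ne_zero ((map_ne_zero _).2 hlam₀0) ((map_ne_zero _).2 hP0)
    have hε₂n : ε₂ ^ (n R) ≠ 0 := zpow_ne_zero _ hε₂0
    have hl₀ : algebraMap L Ω lam₀ ≠ 0 := (map_ne_zero _).2 hlam₀0
    have hPΩ : algebraMap L Ω P ≠ 0 := (map_ne_zero _).2 hP0
    rw [hl, map_mul, map_mul, map_mul, map_inv₀, map_mul, map_zpow₀]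
    rw [mul_zpow, ← zpow_mul] at heq
    field_simp
    linear_combination heq
  have hlv : A.valuation (algebraMap L Ω l) = 1 := by
    rw [hlval, map_mul, map_inv₀, map_zpow₀, hεv, hε₂, one_zpow, inv_one, mul_one]
  have hordl := ord_eq_zero_of_valuation_eq_one x hA hlv
  -- expand the order of `l`
  have hP'ord : x.ord P' = ∑ i ∈ J', n i * x.ord (0 - (pts i).coord hrat x) :=
    ord_prod_zpow x J' _ n hfac'
  have hPord : x.ord P = ∑ i ∈ J, n i * x.ord (cR - (pts i).coord hrat x) :=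
    ord_prod_zpow x J _ n hfac
  have hexp : x.ord l = x.ord lam + W * n R * x.ord cR + x.ord P' - (x.ord lam₀ + x.ord P) := by
    have hc0 : cR ^ (W * n R) ≠ 0 := zpow_ne_zero _ hcR0
    rw [hl, x.ord_mul (mul_ne_zero (mul_ne_zero hlam0 hc0) hP'0)
      (inv_ne_zero (mul_ne_zero hlam₀0 hP0)), x.ord_mul (mul_ne_zero hlam0 hc0) hP'0,
      x.ord_mul hlam0 hc0, x.ord_inv, x.ord_mul hlam₀0 hP0, x.ord_zpow]
    ring
  -- the sums of local intersection numbers
  have hsumR : ∑ i, n i * locInt hrat x (pts i) (pts R) =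
      ∑ i ∈ J, n i * x.ord (cR - (pts i).coord hrat x) := by
    rw [hJ, Finset.sum_filter]
    refine Finset.sum_congr rfl fun i _ => ?_
    split_ifs with hi
    · have hred : (pts i).red x = (pts R).red x := (hred_iff i).1 hi.2.1
      unfold locInt
      rw [if_pos hred]
    · push Not at hi
      by_cases hn : n i = 0
      · rw [hn, zero_mul]
      by_cases hr : D.r (pl i) = Q
      · have := hi hn hr
        subst this
        rw [locInt_self, mul_zero]
      · have hred : (pts i).red x ≠ (pts R).red x := fun h => hr ((hred_iff i).2 h)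
        unfold locInt
        rw [if_neg hred, mul_zero]
  have hsum₀ : ∑ i, n i * locInt hrat x (pts i) (KPt.const r₀) =
      ∑ i ∈ J', n i * x.ord (0 - (pts i).coord hrat x) := by
    rw [hJ', Finset.sum_filter]
    refine Finset.sum_congr rfl fun i _ => ?_
    split_ifs with hi
    · have hred : (pts i).red x = (KPt.const r₀ : KPt k F L).red x := (hred_iff' i).1 hi.2
      unfold locInt
      rw [if_pos hred, KPt.coord_const]
    · push Not at hi
      by_cases hn : n i = 0
      · rw [hn, zero_mul]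
      · have hr : D.r (pl i) ≠ Q' := hi hn
        have hred : (pts i).red x ≠ (KPt.const r₀ : KPt k F L).red x :=
          fun h => hr ((hred_iff' i).2 h)
        unfold locInt
        rw [if_neg hred, mul_zero]
  have hself : locInt hrat x (pts R) (KPt.const ((pts R).red x)) = x.ord cR := by
    unfold locInt
    rw [if_pos (show (pts R).red x = (KPt.const ((pts R).red x) : KPt k F L).red x from rfl),
      KPt.coord_const, zero_sub, Fermat.Agent.S18lib.Cech.ord_neg]
  rw [hself, hsumR, hsum₀, ← hPord, ← hP'ord]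
  linear_combination hordl - hexp

include hℓ hA in
/-- **(P2)-local in the form `DegChain.LocalP2`** -/
theorem localP2_of_realizes [CharZero (IsLocalRing.ResidueField A)]
    (hk' : ∀ c' : IsLocalRing.ResidueField A, ∃ c : k,
      algebraMap (IsLocalRing.ResidueField A) F c' = algebraMap k F c)
    {I : Type*} [Fintype I] (pts : I → KPt k F L) (pl : I → Place Ω FΩ)
    (hpl : Function.Injective pl) (hreal : ∀ i, Realizes ι (pts i) (pl i))
    (n : I → ℤ) {φ : FΩ} (hφ : φ ≠ 0) (hdiv₁ : ∀ i, (pl i).ord φ = n i)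
    (hdiv₂ : ∀ P : Place Ω FΩ, (∀ i, pl i ≠ P) → P.ord φ = 0)
    (R : I) {σ : F →ₐ[k] L} {hσ : σ.toRingHom.IsIntegral} (hR : pts R = KPt.gen σ hσ)
    (r₀ : Place k F) (R₀' : Place Ω FΩ) (hr₀ : Realizes ι (KPt.const r₀ : KPt k F L) R₀')
    (hR₀ : ∀ i, pl i ≠ R₀')
    {τ : F} (hτ : ∀ c : k, τ ≠ algebraMap k F c) (Wτ : Divisor k F)
    (hW₁ : ∀ (p : Place k F) (c : k), 0 < p.ord (τ - algebraMap k F c) →
      Wτ p = p.ord (τ - algebraMap k F c) - 1)
    (hW₂ : ∀ p : Place k F, p.ord τ < 0 → Wτ p = p.ord τ - 1)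
    (lam lam₀ : L)
    (hlam : algebraMap L Ω lam = val (pl R) (φ * (ι τ - cΩ Ω FΩ (σ τ)) ^ (-(n R))))
    (hlam₀ : algebraMap L Ω lam₀ = val R₀' φ) :
    LocalP2 hrat x pts n R r₀ Wτ lam lam₀ :=
  p2_wrap hrat ℓ hℓ x hA hk' pts pl hpl hreal n hφ hdiv₁ hdiv₂ R hR r₀ R₀' hr₀ hR₀ hτ Wτ hW₁ hW₂
    lam lam₀ hlam hlam₀

include hℓ hA in
/-- **(P2)-local in the form `DegChain.LocalP2`**, the divisor of `φ` given in sum form -/
theorem localP2_of_realizes_sum [CharZero (IsLocalRing.ResidueField A)]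
    (hk' : ∀ c' : IsLocalRing.ResidueField A, ∃ c : k,
      algebraMap (IsLocalRing.ResidueField A) F c' = algebraMap k F c)
    {I : Type*} [Fintype I] [DecidableEq (Place Ω FΩ)] (pts : I → KPt k F L)
    (pl : I → Place Ω FΩ)
    (hpl : Function.Injective pl) (hreal : ∀ i, Realizes ι (pts i) (pl i))
    (n : I → ℤ) {φ : FΩ} (hφ : φ ≠ 0)
    (hdiv : ∀ P : Place Ω FΩ, P.ord φ = ∑ i, if pl i = P then n i else 0)
    (R : I) {σ : F →ₐ[k] L} {hσ : σ.toRingHom.IsIntegral} (hR : pts R = KPt.gen σ hσ)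
    (r₀ : Place k F) (R₀' : Place Ω FΩ) (hr₀ : Realizes ι (KPt.const r₀ : KPt k F L) R₀')
    (hR₀ : R₀' ∉ Set.range pl)
    {τ : F} (hτ : ∀ c : k, τ ≠ algebraMap k F c) (Wτ : Divisor k F)
    (hW₁ : ∀ (p : Place k F) (c : k), 0 < p.ord (τ - algebraMap k F c) →
      Wτ p = p.ord (τ - algebraMap k F c) - 1)
    (hW₂ : ∀ p : Place k F, p.ord τ < 0 → Wτ p = p.ord τ - 1)
    (lam lam₀ : L)
    (hlam : algebraMap L Ω lam = val (pl R) (φ * (ι τ - cΩ Ω FΩ (σ τ)) ^ (-(n R))))
    (hlam₀ : algebraMap L Ω lam₀ = val R₀' φ) :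
    LocalP2 hrat x pts n R r₀ Wτ lam lam₀ := by
  refine localP2_of_realizes hrat ℓ hℓ x hA hk' pts pl hpl hreal n hφ ?_ ?_ R hR r₀ R₀' hr₀
    (fun i h => hR₀ ⟨i, h⟩) hτ Wτ hW₁ hW₂ lam lam₀ hlam hlam₀
  · intro i
    rw [hdiv, Finset.sum_eq_single i]
    · rw [if_pos rfl]
    · intro j _ hji
      rw [if_neg fun h => hji (hpl h)]
    · intro h
      exact absurd (Finset.mem_univ i) h
  · intro P hP
    rw [hdiv]
    exact Finset.sum_eq_zero fun i _ => if_neg (hP i)

end Main

end Fermat.Agent.S17lib.P2loc
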